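/-
S56 / block EC (global Euler characteristic) / BASE CASE (architect helper83).
Abelian groups with an operator `g`; `P(g)` for an integer polynomial `P`; counting the image of the
"idempotent" `π = P(g)`.  Definitions only (Mathlib only).

Convention: `(V, g)` is "of type `(p, m)`" (`IsPM p m g`) if `p V = 0` and `g^m = 1`.  If
`IsIdemPoly p m P` then `π = P(g)` is an idempotent of every `(V, g)` of type `(p, m)`, which commutes
with all equivariant maps, so `V ↦ π V` is exact.
* `cnt P g`     = `#π V`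
* `cntT p P g`  = `#π (V[p])`
* `cntM p P g`  = `#π (V/pV)`
-/
import Mathlib

set_option autoImplicit false

namespace Fermat.Agent.S56.EC.Base

open Polynomial

variable {V : Type*} [AddCommGroup V]

/-- `P(g)` for an integer polynomial `P` and an additive endomorphism `g`. -/
noncomputable def pe (P : ℤ[X]) (g : V →+ V) : V →+ V :=
  Polynomial.aeval (R := ℤ) (A := AddMonoid.End V) g P

/-- `#P(g)V`. -/
noncomputable def cnt (P : ℤ[X]) (g : V →+ V) : ℕ := Nat.card (pe P g).range

/-- `#P(g)(V[p])`. -/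
noncomputable def cntT (p : ℕ) (P : ℤ[X]) (g : V →+ V) : ℕ :=
  Nat.card ((nsmulAddMonoidHom (α := V) p).ker.map (pe P g))

/-- `#P(g)(V/pV) = [P(g)V + pV : pV]`. -/
noncomputable def cntM (p : ℕ) (P : ℤ[X]) (g : V →+ V) : ℕ :=
  ((nsmulAddMonoidHom (α := V) p).range).relIndex
    ((pe P g).range ⊔ (nsmulAddMonoidHom (α := V) p).range)

/-- `P` is an idempotent of `(ℤ/p)[X]/(X^m - 1)`. -/
def IsIdemPoly (p m : ℕ) (P : ℤ[X]) : Prop :=
  ∃ A B : ℤ[X], P * P - P = C (p : ℤ) * A + (X ^ m - 1) * B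

/-- `p V = 0` and `g^m = 1`. -/
structure IsPM (p m : ℕ) (g : V →+ V) : Prop where
  tors : ∀ v : V, p • v = 0
  ord : ∀ v : V, g^[m] v = v

/-- The operator `f ↦ f ∘ τ` on `Map(Y, A)`. -/
def perm {Y : Type*} (τ : Y → Y) (A : Type*) [AddCommGroup A] : (Y → A) →+ (Y → A) where
  toFun f := f ∘ τ
  map_zero' := rfl
  map_add' _ _ := rfl

@[simp] theorem perm_apply {Y : Type*} (τ : Y → Y) (A : Type*) [AddCommGroup A] (f : Y → A) (y : Y) :
    perm τ A f y = f (τ y) := rfl

end Fermat.Agent.S56.EC.Base
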