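/-
S56 / block EC / BASE CASE (architect helper83): definitions of the cohomological side.

Setting: `X` a finite `GQ`-set, `ρ : X →[GQ] X` an automorphism with `ρ^m = 1`.  `ρ` induces operators
* `IndMod.pull A ρ` on `A_X = Map(X, A)` hence `Hsm.map (IndMod.pull A ρ) n` on `H^n_S(A_X)`,
* `locOp q ρ n` on `H^n_q(K_X)`,
* `tauLoc q ρ` on the set `LocOrb q X` of local orbits ("places over `q`"),
* `tauConj c ρ` on the set `ConjOrb c X` of orbits of a complex conjugation ("infinite places"),
* `minusOp c γ` on the `(-1)`-eigenspace `minusSub c A` of `c`.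
Only definitions and `rfl`-lemmas.
-/
import Fermat.Agent.S56.EC.Defs
import Fermat.Agent.S56.EC.Base.Defs
import Fermat.Agent.S55.Units.T1.U4Defs
import Fermat.Agent.S55.Coh.SetDefs2

set_option autoImplicit false

namespace Fermat.Agent.S56.EC.Base

open Fermat.Agent.S55 Polynomial

/-- helper114's `polyAdd` is `pe`. -/
theorem polyAdd_eq_pe {A : Type} [AddCommGroup A] (g : A →+ A) (P : ℤ[X]) :
    EC.polyAdd g P = pe P g := rfl

/-- the two `IsIdemPoly` are the same -/
theorem isIdemPoly_iff {p m : ℕ} {P : ℤ[X]} : EC.IsIdemPoly p m P ↔ IsIdemPoly p m P := Iff.rfl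

section general

variable {G : Type} [Group G]

/-- The map induced on orbits by an equivariant map. -/
def orbMap {Y : Type} [MulAction G Y] (u : Y →[G] Y) :
    MulAction.orbitRel.Quotient G Y → MulAction.orbitRel.Quotient G Y :=
  Quotient.map' u (by
    rintro a b ⟨h, rfl⟩
    exact ⟨h, (map_smul u h b).symm⟩)

@[simp] theorem orbMap_mk {Y : Type} [MulAction G Y] (u : Y →[G] Y) (y : Y) :
    orbMap u (Quotient.mk'' y) = Quotient.mk'' (u y) := rfl

/-- An equivariant map, regarded as equivariant under a subgroup. -/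
def subHom {X : Type} [MulAction G X] (H : Subgroup G) (u : X →[G] X) : X →[H] X where
  toFun := u
  map_smul' h x := map_smul u (h : G) x

@[simp] theorem subHom_apply {X : Type} [MulAction G X] (H : Subgroup G) (u : X →[G] X) (x : X) :
    subHom H u x = u x := rfl

/-- The orbits of `⟨c⟩` on `X`. -/
abbrev ConjOrb (c : G) (X : Type) [MulAction G X] : Type :=
  MulAction.orbitRel.Quotient (Subgroup.zpowers c) X

/-- The map induced by `ρ` on the orbits of `⟨c⟩`. -/
def tauConj (c : G) {X : Type} [MulAction G X] (ρ : X →[G] X) : ConjOrb c X → ConjOrb c X :=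
  orbMap (subHom (Subgroup.zpowers c) ρ)

variable {A : Type} [AddCommGroup A] [DistribMulAction G A]

/-- The `(-1)`-eigenspace of `c`. -/
def minusSub (c : G) (A : Type) [AddCommGroup A] [DistribMulAction G A] : AddSubgroup A where
  carrier := {a | c • a = -a}
  zero_mem' := by simp
  add_mem' {a b} ha hb := by
    show c • (a + b) = -(a + b)
    rw [smul_add, show c • a = -a from ha, show c • b = -b from hb, neg_add]
  neg_mem' {a} ha := by
    show c • (-a) = - -a
    rw [smul_neg, show c • a = -a from ha]

theorem mem_minusSub {c : G} {a : A} : a ∈ minusSub c A ↔ c • a = -a := Iff.rfl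

/-- The operator induced by an equivariant endomorphism on the `(-1)`-eigenspace of `c`. -/
def minusOp (c : G) (γ : A →+[G] A) : minusSub c A →+ minusSub c A where
  toFun a := ⟨γ a.1, by
    show c • γ a.1 = -γ a.1
    rw [← map_smul, show c • a.1 = -a.1 from a.2, map_neg]⟩
  map_zero' := Subtype.ext (map_zero γ)
  map_add' a b := Subtype.ext (map_add γ a.1 b.1)

@[simp] theorem coe_minusOp (c : G) (γ : A →+[G] A) (a : minusSub c A) :
    (minusOp c γ a : A) = γ a.1 := rfl

end general

section arith

variable (q : Nat.Primes) {X : Type} [MulAction GQ X]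

/-- The operator induced by `ρ` on `H^n_q(K_X)`. -/
noncomputable def locOp (ρ : X →[GQ] X) (n : ℕ) :
    Hloc q (IndMod X Kx) n →+ Hloc q (IndMod X Kx) n :=
  Hsm.map (ResMod.map (ιv q) (IndMod.pull Kx ρ)) n

/-- The map induced by `ρ` on the local orbits. -/
noncomputable def tauLoc (ρ : X →[GQ] X) : LocOrb q X → LocOrb q X := orbMap (ResSet.map (ιv q) ρ)

end arith

end Fermat.Agent.S56.EC.Base
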