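/-
S56 / block EC / BASE CASE (architect helper83): number field side, definitions (Mathlib only).
`K` a number field, `σ` an automorphism of `K` with `σ^m = 1`.
* `sigK σ`   : the operator induced by `σ` on `Additive Kˣ`
* `tauInf σ` : `w ↦ w ∘ σ` on the infinite places
* a finite family of finite places is an injective map `pl : T → HeightOneSpectrum (𝓞 K)`, with a map
  `τ : T → T` such that `pl (τ t) = (pl t) ∘ σ` (as valuations)
* `IsUnitModel σ pl gE ι` : `(E, gE)` is, through `ι`, the group of `T`-units of `K` with the operator `σ`.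
-/
import Fermat.Agent.S56.EC.Base.Defs

set_option autoImplicit false

namespace Fermat.Agent.S56.EC.Base

open Polynomial NumberField IsDedekindDomain

variable {K : Type*} [Field K]

/-- The operator induced by `σ` on `Additive Kˣ`. -/
def sigK (σ : K ≃+* K) : Additive Kˣ →+ Additive Kˣ :=
  MonoidHom.toAdditive (Units.map (σ : K →* K))

@[simp] theorem sigK_ofMul (σ : K ≃+* K) (x : Kˣ) :
    sigK σ (Additive.ofMul x) = Additive.ofMul (Units.map (σ : K →* K) x) := rfl

theorem coe_toMul_sigK (σ : K ≃+* K) (x : Additive Kˣ) :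
    ((sigK σ x).toMul : K) = σ (x.toMul : K) := rfl

/-- `w ↦ w ∘ σ` on the infinite places. -/
noncomputable def tauInf (σ : K ≃+* K) (w : InfinitePlace K) : InfinitePlace K :=
  w.comap (σ : K →+* K)

theorem tauInf_apply (σ : K ≃+* K) (w : InfinitePlace K) (x : K) : tauInf σ w x = w (σ x) := rfl

variable [NumberField K]

/-- `(E, gE)` is, through `ι`, the group of `T`-units of `K` (`T` = the image of `pl`) with the operator
induced by `σ`. -/
structure IsUnitModel (σ : K ≃+* K) {T : Type*} (pl : T → HeightOneSpectrum (𝓞 K))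
    {E : Type*} [AddCommGroup E] (gE : E →+ E) (ι : E →+ Additive Kˣ) : Prop where
  inj : Function.Injective ι
  equiv : ∀ e, ι (gE e) = sigK σ (ι e)
  range : ∀ x : Kˣ, (∃ e, ι e = Additive.ofMul x) ↔
    ∀ v : HeightOneSpectrum (𝓞 K), (∀ t, pl t ≠ v) → v.valuation K (x : K) = 1

end Fermat.Agent.S56.EC.Base
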