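/-
S56 / block EC / BASE CASE, section `Pe`: calculus of `P(g) = aeval g P` on an abelian group.
-/
import Fermat.Agent.S56.EC.Base.Defs

set_option autoImplicit false

namespace Fermat.Agent.S56.EC.Base

open Polynomial

variable {V : Type*} [AddCommGroup V]

theorem pe_C (n : ℤ) (g : V →+ V) (v : V) : pe (C n) g v = n • v := by
  unfold pe
  rw [aeval_C, eq_intCast]
  exact AddMonoid.End.intCast_apply n v

theorem pe_X (g : V →+ V) (v : V) : pe X g v = g v := by
  unfold pe
  rw [aeval_X]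

theorem pe_zero (g : V →+ V) (v : V) : pe 0 g v = 0 := by
  unfold pe
  rw [map_zero]
  rfl

theorem pe_one (g : V →+ V) (v : V) : pe 1 g v = v := by
  unfold pe
  rw [map_one]
  rfl

theorem pe_add (P Q : ℤ[X]) (g : V →+ V) (v : V) : pe (P + Q) g v = pe P g v + pe Q g v := by
  unfold pe
  rw [map_add]
  rfl

theorem pe_sub (P Q : ℤ[X]) (g : V →+ V) (v : V) : pe (P - Q) g v = pe P g v - pe Q g v := by
  unfold pe
  rw [map_sub]
  rfl

theorem pe_mul (P Q : ℤ[X]) (g : V →+ V) (v : V) : pe (P * Q) g v = pe P g (pe Q g v) := by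
  unfold pe
  rw [map_mul]
  rfl

theorem pe_X_pow (k : ℕ) (g : V →+ V) (v : V) : pe (X ^ k) g v = g^[k] v := by
  induction k generalizing v with
  | zero => rw [pow_zero, pe_one, Function.iterate_zero, id]
  | succ k ih => rw [pow_succ, pe_mul, pe_X, ih, Function.iterate_succ_apply]

/-- `P(g)` commutes with equivariant maps -/
theorem pe_comm {W : Type*} [AddCommGroup W] (f : V →+ W) {g : V →+ V} {g' : W →+ W}
    (h : ∀ v, f (g v) = g' (f v)) (P : ℤ[X]) (v : V) : f (pe P g v) = pe P g' (f v) := by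
  induction P using Polynomial.induction_on generalizing v with
  | C a => rw [pe_C, pe_C, map_zsmul]
  | add p q hp hq => rw [pe_add, pe_add, map_add, hp, hq]
  | monomial n a ih =>
    rw [pow_succ, ← mul_assoc, pe_mul (C a * X ^ n) X g, pe_mul (C a * X ^ n) X g', pe_X, pe_X, ih, h]

theorem pe_id (P : ℤ[X]) (v : V) : pe P (AddMonoidHom.id V) v = P.eval 1 • v := by
  induction P using Polynomial.induction_on generalizing v with
  | C a => rw [pe_C, eval_C]
  | add p q hp hq => rw [pe_add, hp, hq, eval_add, add_smul]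
  | monomial n a ih =>
    rw [pow_succ, ← mul_assoc, pe_mul (C a * X ^ n) X, pe_X, AddMonoidHom.id_apply, ih]
    simp

/-- `π = P(g)` is idempotent on groups of type `(p, m)` -/
theorem pe_idem {p m : ℕ} {P : ℤ[X]} (hP : IsIdemPoly p m P) {g : V →+ V} (h : IsPM p m g) (v : V) :
    pe P g (pe P g v) = pe P g v := by
  obtain ⟨A, B, e⟩ := hP
  have h1 : pe (P * P - P) g v = 0 := by
    rw [e, pe_add, pe_mul, pe_C, pe_mul, pe_sub, pe_X_pow, pe_one, h.ord, sub_self, add_zero,
      natCast_zsmul, h.tors]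
  rw [pe_sub, pe_mul] at h1
  exact sub_eq_zero.1 h1

theorem mem_range_pe_iff {p m : ℕ} {P : ℤ[X]} (hP : IsIdemPoly p m P) {g : V →+ V}
    (h : IsPM p m g) (v : V) : v ∈ (pe P g).range ↔ pe P g v = v := by
  constructor
  · rintro ⟨w, rfl⟩
    exact pe_idem hP h w
  · intro e
    exact ⟨v, e⟩

/-- `1 - P` is again an idempotent polynomial -/
theorem IsIdemPoly.one_sub {p m : ℕ} {P : ℤ[X]} (hP : IsIdemPoly p m P) :
    IsIdemPoly p m (1 - P) := by
  obtain ⟨A, B, e⟩ := hP
  refine ⟨A, B, ?_⟩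
  rw [← e]
  ring

theorem isIdemPoly_one (p m : ℕ) : IsIdemPoly p m 1 := ⟨0, 0, by simp⟩

/-- for `P = 1` the count is the cardinality -/
theorem cnt_one (g : V →+ V) : cnt 1 g = Nat.card V := by
  have h : (pe 1 g).range = ⊤ := by
    rw [AddMonoidHom.range_eq_top]
    intro v
    exact ⟨v, pe_one g v⟩
  rw [cnt, h]
  exact Nat.card_congr AddSubgroup.topEquiv.toEquiv

end Fermat.Agent.S56.EC.Base
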