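/-
S56 / block EC / BASE CASE: section `Exact` (task EC-B-Exact).  Owner: helper166.
`V ↦ P(g) V` is exact on groups killed by `p` with `g^m = 1`; models of `M[p]`, `M/p`; the
equivariant Kummer count.
-/
import Fermat.Agent.S56.EC.Base.Pe

set_option autoImplicit false

namespace Fermat.Agent.S56.EC.Base

open Polynomial

/-! ### Auxiliary lemmas -/

theorem Exact.card_map_of_injective {V W : Type*} [AddCommGroup V] [AddCommGroup W] {f : V →+ W}
    (hf : Function.Injective f) (H : AddSubgroup V) : Nat.card (H.map f) = Nat.card H :=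
  (Nat.card_congr (H.equivMapOfInjective f hf).toEquiv).symm

/-- the image of `range P(g)` under a surjective equivariant map. -/
theorem Exact.map_range_pe {V W : Type*} [AddCommGroup V] [AddCommGroup W] (f : V →+ W)
    (hf : Function.Surjective f) {g : V →+ V} {g' : W →+ W} (h : ∀ v, f (g v) = g' (f v))
    (P : ℤ[X]) : (pe P g).range.map f = (pe P g').range := by
  ext x
  constructor
  · rintro ⟨_, ⟨v, rfl⟩, rfl⟩
    exact ⟨f v, (pe_comm f h P v).symm⟩
  · rintro ⟨w, rfl⟩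
    obtain ⟨v, rfl⟩ := hf w
    exact ⟨_, ⟨v, rfl⟩, pe_comm f h P v⟩

/-- the operator induced by `g` on `M / p M`. -/
noncomputable def Exact.quotOp {M : Type*} [AddCommGroup M] (p : ℕ) (g : M →+ M) :
    M ⧸ (nsmulAddMonoidHom (α := M) p).range →+ M ⧸ (nsmulAddMonoidHom (α := M) p).range :=
  QuotientAddGroup.map _ _ g (by
    rintro _ ⟨y, rfl⟩
    exact ⟨g y, (map_nsmul g p y).symm⟩)

theorem Exact.quotOp_mk {M : Type*} [AddCommGroup M] (p : ℕ) (g : M →+ M) (x : M) :
    QuotientAddGroup.mk' (nsmulAddMonoidHom (α := M) p).range (g x) =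
      Exact.quotOp p g (QuotientAddGroup.mk' (nsmulAddMonoidHom (α := M) p).range x) := rfl

/-- the operator induced by `g` on `M[p]`. -/
noncomputable def Exact.kerOp {M : Type*} [AddCommGroup M] (p : ℕ) (g : M →+ M) :
    (nsmulAddMonoidHom (α := M) p).ker →+ (nsmulAddMonoidHom (α := M) p).ker :=
  (g.comp (nsmulAddMonoidHom (α := M) p).ker.subtype).codRestrict _ (by
    intro x
    have hx : p • (x : M) = 0 := x.2
    show p • g (x : M) = 0
    rw [← map_nsmul, hx, map_zero])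

theorem Exact.kerOp_coe {M : Type*} [AddCommGroup M] (p : ℕ) (g : M →+ M)
    (x : (nsmulAddMonoidHom (α := M) p).ker) :
    (nsmulAddMonoidHom (α := M) p).ker.subtype (Exact.kerOp p g x) =
      g ((nsmulAddMonoidHom (α := M) p).ker.subtype x) := rfl

/-! ### The statements -/

theorem cnt_congr {V W : Type*} [AddCommGroup V] [AddCommGroup W] (e : V ≃+ W) {g : V →+ V}
    {g' : W →+ W} (h : ∀ v, e (g v) = g' (e v)) (P : ℤ[X]) : cnt P g = cnt P g' := by
  unfold cnt
  rw [← Exact.map_range_pe e.toAddMonoidHom e.surjective h P]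
  exact (Exact.card_map_of_injective (f := e.toAddMonoidHom) e.injective _).symm

/-- `V ↦ π V` is exact: multiplicativity of `cnt` in short exact sequences. -/
theorem cnt_eq_mul_of_exact {V' V V'' : Type*} [AddCommGroup V'] [AddCommGroup V]
    [AddCommGroup V''] (f : V' →+ V) (h : V →+ V'') {g' : V' →+ V'} {g : V →+ V} {g'' : V'' →+ V''}
    (hf : ∀ v, f (g' v) = g (f v)) (hh : ∀ v, h (g v) = g'' (h v))
    (finj : Function.Injective f) (hsurj : Function.Surjective h)
    (hex : ∀ v, h v = 0 ↔ ∃ v', f v' = v) {p m : ℕ} {P : ℤ[X]} (hP : IsIdemPoly p m P)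
    (hV : IsPM p m g) : cnt P g = cnt P g' * cnt P g'' := by
  unfold cnt
  set K := (pe P g).range with hK
  have h1 : h.ker.relIndex K = Nat.card (pe P g'').range := by
    rw [AddSubgroup.relIndex_ker, hK, Exact.map_range_pe h hsurj hh P]
  have h2 : h.ker ⊓ K = (pe P g').range.map f := by
    ext x
    constructor
    · rintro ⟨hx1, hx2⟩
      obtain ⟨v', rfl⟩ := (hex x).mp hx1
      have hx3 : pe P g (f v') = f v' := (mem_range_pe_iff hP hV _).mp hx2
      exact ⟨pe P g' v', ⟨v', rfl⟩, by rw [pe_comm f hf P v', hx3]⟩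
    · rintro ⟨_, ⟨v', rfl⟩, rfl⟩
      refine ⟨(hex _).mpr ⟨_, rfl⟩, f v', (pe_comm f hf P v').symm⟩
  have h3 : Nat.card (h.ker ⊓ K : AddSubgroup V) = Nat.card (pe P g').range := by
    rw [h2]
    exact Exact.card_map_of_injective finj _
  rw [← h1, ← h3, ← AddSubgroup.relIndex_bot_left, ← AddSubgroup.relIndex_bot_left,
    ← AddSubgroup.inf_relIndex_right (H := h.ker) (K := K)]
  exact (AddSubgroup.relIndex_mul_relIndex _ _ _ bot_le inf_le_right).symm

/-- `cntT` computed on any model `W` of `M[p]` -/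
theorem cntT_eq_cnt {W M : Type*} [AddCommGroup W] [AddCommGroup M] (j : W →+ M)
    (hj : Function.Injective j) {gW : W →+ W} {gM : M →+ M} (hc : ∀ w, j (gW w) = gM (j w))
    (p : ℕ) (him : ∀ x : M, p • x = 0 ↔ ∃ w, j w = x) (P : ℤ[X]) : cntT p P gM = cnt P gW := by
  unfold cntT cnt
  have h1 : (nsmulAddMonoidHom (α := M) p).ker.map (pe P gM) = (pe P gW).range.map j := by
    ext x
    constructor
    · rintro ⟨y, hy, rfl⟩
      obtain ⟨w, rfl⟩ := (him y).mp hy
      exact ⟨_, ⟨w, rfl⟩, pe_comm j hc P w⟩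
    · rintro ⟨_, ⟨w, rfl⟩, rfl⟩
      exact ⟨j w, (him _).mpr ⟨w, rfl⟩, (pe_comm j hc P w).symm⟩
  rw [h1]
  exact Exact.card_map_of_injective hj _

/-- `cntM` computed on any model `W` of `M/pM` -/
theorem cntM_eq_cnt {W M : Type*} [AddCommGroup W] [AddCommGroup M] (r : M →+ W)
    (hr : Function.Surjective r) {gW : W →+ W} {gM : M →+ M} (hc : ∀ x, r (gM x) = gW (r x))
    (p : ℕ) (hker : ∀ x : M, r x = 0 ↔ ∃ y, p • y = x) (P : ℤ[X]) : cntM p P gM = cnt P gW := by
  unfold cntM cnt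
  have h1 : (nsmulAddMonoidHom (α := M) p).range = r.ker := by
    ext x
    exact (hker x).symm
  rw [h1, AddSubgroup.relIndex_ker, AddSubgroup.map_sup, Exact.map_range_pe r hr hc P,
    (AddSubgroup.map_eq_bot_iff r.ker).mpr le_rfl, sup_bot_eq]

theorem cntT_congr {V W : Type*} [AddCommGroup V] [AddCommGroup W] (e : V ≃+ W) {g : V →+ V}
    {g' : W →+ W} (h : ∀ v, e (g v) = g' (e v)) (p : ℕ) (P : ℤ[X]) :
    cntT p P g = cntT p P g' := by
  rw [cntT_eq_cnt (nsmulAddMonoidHom (α := V) p).ker.subtype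
      (AddSubgroup.subtype_injective _) (Exact.kerOp_coe p g) p
      (fun x => ⟨fun hx => ⟨⟨x, hx⟩, rfl⟩, by rintro ⟨w, rfl⟩; exact w.2⟩) P]
  refine (cntT_eq_cnt (e.toAddMonoidHom.comp (nsmulAddMonoidHom (α := V) p).ker.subtype)
    (e.injective.comp (AddSubgroup.subtype_injective _)) (fun w => h _) p (fun x => ?_) P).symm
  constructor
  · intro hx
    refine ⟨⟨e.symm x, ?_⟩, e.apply_symm_apply x⟩
    show p • e.symm x = 0
    rw [← map_nsmul, hx, map_zero]
  · rintro ⟨w, rfl⟩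
    have hw : p • (w : V) = 0 := w.2
    show p • e (w : V) = 0
    rw [← map_nsmul, hw, map_zero]

theorem cntM_congr {V W : Type*} [AddCommGroup V] [AddCommGroup W] (e : V ≃+ W) {g : V →+ V}
    {g' : W →+ W} (h : ∀ v, e (g v) = g' (e v)) (p : ℕ) (P : ℤ[X]) :
    cntM p P g = cntM p P g' := by
  have hmk : ∀ x : W, QuotientAddGroup.mk' (nsmulAddMonoidHom (α := W) p).range x = 0 ↔
      ∃ y, p • y = x := by
    intro x
    rw [QuotientAddGroup.mk'_apply, QuotientAddGroup.eq_zero_iff]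
    rfl
  rw [cntM_eq_cnt (QuotientAddGroup.mk' (nsmulAddMonoidHom (α := W) p).range)
      (QuotientAddGroup.mk'_surjective _) (Exact.quotOp_mk p g') p hmk P]
  refine cntM_eq_cnt ((QuotientAddGroup.mk' (nsmulAddMonoidHom (α := W) p).range).comp
    e.toAddMonoidHom) ((QuotientAddGroup.mk'_surjective _).comp e.surjective) (fun x => ?_) p
    (fun x => ?_) P
  · show QuotientAddGroup.mk' _ (e (g x)) = _
    rw [h, Exact.quotOp_mk]
    rfl
  · show QuotientAddGroup.mk' _ (e x) = 0 ↔ _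
    rw [hmk]
    constructor
    · rintro ⟨y, hy⟩
      refine ⟨e.symm y, e.injective ?_⟩
      rw [map_nsmul, e.apply_symm_apply, hy]
    · rintro ⟨y, rfl⟩
      exact ⟨e y, (map_nsmul e p y).symm⟩

/-- on a group killed by `p` -/
theorem cntT_eq_cnt_of_tors {V : Type*} [AddCommGroup V] (g : V →+ V) (p : ℕ)
    (h : ∀ v : V, p • v = 0) (P : ℤ[X]) : cntT p P g = cnt P g :=
  cntT_eq_cnt (gW := g) (gM := g) (AddMonoidHom.id V) Function.injective_id (fun _ => rfl) p
    (fun x => ⟨fun _ => ⟨x, rfl⟩, fun _ => h x⟩) P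

theorem cntM_eq_cnt_of_tors {V : Type*} [AddCommGroup V] (g : V →+ V) (p : ℕ)
    (h : ∀ v : V, p • v = 0) (P : ℤ[X]) : cntM p P g = cnt P g :=
  cntM_eq_cnt (gW := g) (gM := g) (AddMonoidHom.id V) Function.surjective_id (fun _ => rfl) p
    (fun x => ⟨fun hx => ⟨0, by rw [smul_zero]; exact hx.symm⟩,
      by rintro ⟨y, rfl⟩; exact h y⟩) P

/-- The equivariant Kummer count: `M →p M →δ N →i M' →p M'` exact, equivariant. -/
theorem cnt_eq_cntM_mul_cntT {M N M' : Type*} [AddCommGroup M] [AddCommGroup N] [AddCommGroup M']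
    (δ : M →+ N) (i : N →+ M') {gM : M →+ M} {gN : N →+ N} {gM' : M' →+ M'}
    (hδ : ∀ x, δ (gM x) = gN (δ x)) (hi : ∀ x, i (gN x) = gM' (i x)) {p m : ℕ} {P : ℤ[X]}
    (hP : IsIdemPoly p m P) (hN : IsPM p m gN) (h1 : ∀ x, δ x = 0 ↔ ∃ y, p • y = x)
    (h2 : ∀ n, i n = 0 ↔ ∃ x, δ x = n) (h3 : ∀ x', p • x' = 0 ↔ ∃ n, i n = x') :
    cnt P gN = cntM p P gM * cntT p P gM' := by
  have hmk : ∀ x : M, QuotientAddGroup.mk' (nsmulAddMonoidHom (α := M) p).range x = 0 ↔
      ∃ y, p • y = x := by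
    intro x
    rw [QuotientAddGroup.mk'_apply, QuotientAddGroup.eq_zero_iff]
    rfl
  rw [cntM_eq_cnt (QuotientAddGroup.mk' (nsmulAddMonoidHom (α := M) p).range)
      (QuotientAddGroup.mk'_surjective _) (Exact.quotOp_mk p gM) p hmk P,
    cntT_eq_cnt (nsmulAddMonoidHom (α := M') p).ker.subtype
      (AddSubgroup.subtype_injective _) (Exact.kerOp_coe p gM') p
      (fun x => ⟨fun hx => ⟨⟨x, hx⟩, rfl⟩, by rintro ⟨w, rfl⟩; exact w.2⟩) P]
  -- the two maps
  set f : M ⧸ (nsmulAddMonoidHom (α := M) p).range →+ N :=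
    QuotientAddGroup.lift _ δ (by
      rintro _ ⟨y, rfl⟩
      exact (h1 _).mpr ⟨y, rfl⟩) with hfdef
  set h : N →+ (nsmulAddMonoidHom (α := M') p).ker :=
    i.codRestrict _ (fun n => (h3 _).mpr ⟨n, rfl⟩) with hhdef
  have hfmk : ∀ x : M, f (QuotientAddGroup.mk' _ x) = δ x := fun x => rfl
  refine cnt_eq_mul_of_exact f h ?_ ?_ ?_ ?_ ?_ hP hN
  · intro v
    obtain ⟨x, rfl⟩ := QuotientAddGroup.mk'_surjective _ v
    rw [← Exact.quotOp_mk, hfmk, hfmk, hδ]
  · intro n
    apply Subtype.ext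
    exact hi n
  · rw [injective_iff_map_eq_zero]
    intro v hv
    obtain ⟨x, rfl⟩ := QuotientAddGroup.mk'_surjective _ v
    rw [hfmk] at hv
    exact (hmk x).mpr ((h1 x).mp hv)
  · intro x'
    obtain ⟨n, hn⟩ := (h3 (x' : M')).mp x'.2
    exact ⟨n, Subtype.ext hn⟩
  · intro n
    have : h n = 0 ↔ i n = 0 := by
      constructor
      · intro e
        exact congrArg Subtype.val e
      · intro e
        exact Subtype.ext e
    rw [this, h2]
    constructor
    · rintro ⟨x, rfl⟩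
      exact ⟨QuotientAddGroup.mk' _ x, rfl⟩
    · rintro ⟨v, rfl⟩
      obtain ⟨x, rfl⟩ := QuotientAddGroup.mk'_surjective _ v
      exact ⟨x, rfl⟩

end Fermat.Agent.S56.EC.Base
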