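/-
S56 / block EC / BASE CASE, section `Perm` (architect helper83, proofs helper189):
permutation modules `Map(Y, A)` with the operator `f ↦ f ∘ τ`.
-/
import Fermat.Agent.S56.EC.Base.Exact

set_option autoImplicit false

namespace Fermat.Agent.S56.EC.Base

open Polynomial

theorem perm_iterate {Y : Type*} (τ : Y → Y) (A : Type*) [AddCommGroup A] (k : ℕ) (f : Y → A) :
    (perm τ A)^[k] f = f ∘ τ^[k] := by
  induction k generalizing f with
  | zero => rfl
  | succ k ih =>
    rw [Function.iterate_succ_apply, ih, Function.iterate_succ']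
    rfl

theorem isPM_perm {Y : Type*} (τ : Y → Y) {m : ℕ} (hτ : ∀ y, τ^[m] y = y) (p : ℕ) :
    IsPM p m (perm τ (ZMod p)) where
  tors v := by
    funext y
    rw [Pi.smul_apply, nsmul_eq_mul, ZMod.natCast_self, zero_mul]
    rfl
  ord v := by
    rw [perm_iterate]
    funext y
    exact congrArg v (hτ y)

/-- the kernel of multiplication by `p > 0` on a torsion free group is trivial -/
private theorem perm_cntT_eq_one {V : Type*} [AddCommGroup V] (g : V →+ V) (p : ℕ) (P : ℤ[X])
    (h : ∀ v : V, p • v = 0 → v = 0) : cntT p P g = 1 := by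
  have hker : (nsmulAddMonoidHom (α := V) p).ker = ⊥ := by
    rw [eq_bot_iff]
    intro v hv
    exact (AddSubgroup.mem_bot).2 (h v hv)
  rw [cntT, hker, AddSubgroup.map_bot]
  exact AddSubgroup.card_bot

theorem cntM_perm_int {Y : Type*} [Finite Y] (τ : Y → Y) (p : ℕ) (P : ℤ[X]) :
    cntM p P (perm τ ℤ) = cnt P (perm τ (ZMod p)) := by
  refine cntM_eq_cnt (AddMonoidHom.compLeft (Int.castAddHom (ZMod p)) Y) ?_ ?_ p ?_ P
  · intro f
    choose f' hf' using fun y => ZMod.intCast_surjective (f y)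
    exact ⟨f', funext hf'⟩
  · intro x
    rfl
  · intro x
    constructor
    · intro hx
      have h1 : ∀ y, (p : ℤ) ∣ x y := fun y =>
        (CharP.intCast_eq_zero_iff (ZMod p) p (x y)).1 (congrFun hx y)
      choose z hz using h1
      refine ⟨z, funext fun y => ?_⟩
      rw [Pi.smul_apply, nsmul_eq_mul, hz y]
    · rintro ⟨z, rfl⟩
      funext y
      change (((p • z) y : ℤ) : ZMod p) = 0
      rw [Pi.smul_apply, nsmul_eq_mul, Int.cast_mul, Int.cast_natCast, ZMod.natCast_self, zero_mul]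

theorem cntT_perm_int {Y : Type*} (τ : Y → Y) {p : ℕ} (hp : 0 < p) (P : ℤ[X]) :
    cntT p P (perm τ ℤ) = 1 := by
  refine perm_cntT_eq_one _ p P fun v hv => funext fun y => ?_
  have h1 : p • v y = 0 := congrFun hv y
  rw [nsmul_eq_mul] at h1
  rcases mul_eq_zero.1 h1 with h | h
  · exact absurd (by exact_mod_cast h) hp.ne'
  · exact h

theorem cnt_perm_congr {Y Y' : Type*} (e : Y ≃ Y') {τ : Y → Y} {τ' : Y' → Y'}
    (h : ∀ y, e (τ y) = τ' (e y)) (A : Type*) [AddCommGroup A] (P : ℤ[X]) :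
    cnt P (perm τ A) = cnt P (perm τ' A) := by
  let E : (Y → A) ≃+ (Y' → A) :=
    { toFun := fun f => f ∘ e.symm
      invFun := fun f => f ∘ e
      left_inv := fun f => by funext y; simp
      right_inv := fun f => by funext y; simp
      map_add' := fun _ _ => rfl }
  refine cnt_congr E ?_ P
  intro f
  funext y'
  change f (τ (e.symm y')) = f (e.symm (τ' y'))
  congr 1
  rw [Equiv.eq_symm_apply, h, Equiv.apply_symm_apply]

theorem cnt_perm_coeff {Y : Type*} (τ : Y → Y) {A B : Type*} [AddCommGroup A] [AddCommGroup B]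
    (e : A ≃+ B) (P : ℤ[X]) : cnt P (perm τ A) = cnt P (perm τ B) :=
  cnt_congr (AddEquiv.piCongrRight fun _ : Y => e) (fun _ => rfl) P

theorem cnt_perm_sigma {I : Type*} [Fintype I] {Y : I → Type*} (τ : ∀ i, Y i → Y i) (A : Type*)
    [AddCommGroup A] (P : ℤ[X]) :
    cnt P (perm (Sigma.map id τ) A) = ∏ i, cnt P (perm (τ i) A) := by
  let pr : ∀ i, ((Σ i, Y i) → A) →+ (Y i → A) := fun i =>
    { toFun := fun f y => f ⟨i, y⟩
      map_zero' := rfl
      map_add' := fun _ _ => rfl }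
  have hpr : ∀ i f, pr i (pe P (perm (Sigma.map id τ) A) f) = pe P (perm (τ i) A) (pr i f) :=
    fun i f => pe_comm (pr i) (fun _ => rfl) P f
  let Φ : (pe P (perm (Sigma.map id τ) A)).range → ∀ i, (pe P (perm (τ i) A)).range :=
    fun x i => ⟨pr i x.1, by
      obtain ⟨f, hf⟩ := x.2
      exact ⟨pr i f, by rw [← hpr, hf]⟩⟩
  have hΦ : Function.Bijective Φ := by
    constructor
    · intro x x' hxx
      apply Subtype.ext
      funext ⟨i, y⟩
      exact congrFun (congrArg Subtype.val (congrFun hxx i)) y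
    · intro z
      choose f hf using fun i => (z i).2
      refine ⟨⟨pe P (perm (Sigma.map id τ) A) fun s => f s.1 s.2, ⟨_, rfl⟩⟩, ?_⟩
      funext i
      apply Subtype.ext
      change pr i (pe P (perm (Sigma.map id τ) A) fun s => f s.1 s.2) = _
      rw [hpr, ← hf i]
      rfl
  rw [cnt, Nat.card_congr (Equiv.ofBijective Φ hΦ), Nat.card_pi]
  rfl

theorem cnt_perm_sum {Y Y' : Type*} (τ : Y → Y) (τ' : Y' → Y') (A : Type*) [AddCommGroup A]
    (P : ℤ[X]) : cnt P (perm (Sum.map τ τ') A) = cnt P (perm τ A) * cnt P (perm τ' A) := by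
  let pl : ((Y ⊕ Y') → A) →+ (Y → A) :=
    { toFun := fun f y => f (Sum.inl y)
      map_zero' := rfl
      map_add' := fun _ _ => rfl }
  let pr : ((Y ⊕ Y') → A) →+ (Y' → A) :=
    { toFun := fun f y => f (Sum.inr y)
      map_zero' := rfl
      map_add' := fun _ _ => rfl }
  have hpl : ∀ f, pl (pe P (perm (Sum.map τ τ') A) f) = pe P (perm τ A) (pl f) :=
    fun f => pe_comm pl (fun _ => rfl) P f
  have hpr : ∀ f, pr (pe P (perm (Sum.map τ τ') A) f) = pe P (perm τ' A) (pr f) :=
    fun f => pe_comm pr (fun _ => rfl) P f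
  let Φ : (pe P (perm (Sum.map τ τ') A)).range →
      (pe P (perm τ A)).range × (pe P (perm τ' A)).range :=
    fun x => (⟨pl x.1, by
      obtain ⟨f, hf⟩ := x.2
      exact ⟨pl f, by rw [← hpl, hf]⟩⟩, ⟨pr x.1, by
      obtain ⟨f, hf⟩ := x.2
      exact ⟨pr f, by rw [← hpr, hf]⟩⟩)
  have hΦ : Function.Bijective Φ := by
    constructor
    · intro x x' hxx
      apply Subtype.ext
      funext s
      rcases s with y | y
      · exact congrFun (congrArg (fun t => (Prod.fst t).1) hxx) y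
      · exact congrFun (congrArg (fun t => (Prod.snd t).1) hxx) y
    · rintro ⟨⟨z, f, hf⟩, ⟨z', f', hf'⟩⟩
      refine ⟨⟨pe P (perm (Sum.map τ τ') A) (Sum.elim f f'), ⟨_, rfl⟩⟩, ?_⟩
      apply Prod.ext
      · apply Subtype.ext
        change pl (pe P (perm (Sum.map τ τ') A) (Sum.elim f f')) = z
        rw [hpl, ← hf]
        rfl
      · apply Subtype.ext
        change pr (pe P (perm (Sum.map τ τ') A) (Sum.elim f f')) = z'
        rw [hpr, ← hf']
        rfl
  rw [cnt, Nat.card_congr (Equiv.ofBijective Φ hΦ), Nat.card_prod]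
  rfl

/-- `ℤ` with the trivial operator -/
theorem cntM_id_int (p : ℕ) (P : ℤ[X]) :
    cntM p P (AddMonoidHom.id ℤ) = cnt P (AddMonoidHom.id (ZMod p)) := by
  refine cntM_eq_cnt (Int.castAddHom (ZMod p)) ZMod.intCast_surjective (fun _ => rfl) p ?_ P
  intro x
  change ((x : ℤ) : ZMod p) = 0 ↔ _
  rw [CharP.intCast_eq_zero_iff (ZMod p) p x]
  constructor
  · rintro ⟨z, rfl⟩
    exact ⟨z, by rw [nsmul_eq_mul]⟩
  · rintro ⟨z, rfl⟩
    exact ⟨z, by rw [nsmul_eq_mul]⟩

theorem cntT_id_int {p : ℕ} (hp : 0 < p) (P : ℤ[X]) : cntT p P (AddMonoidHom.id ℤ) = 1 := by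
  refine perm_cntT_eq_one _ p P fun v hv => ?_
  rw [nsmul_eq_mul] at hv
  rcases mul_eq_zero.1 hv with h | h
  · exact absurd (by exact_mod_cast h) hp.ne'
  · exact h

/-- a group `T` with `T[p]` cyclic of order `p`, trivial operator -/
theorem cntT_id_eq {T : Type*} [AddCommGroup T] {p : ℕ} (hp : p.Prime)
    (hT : Nat.card (nsmulAddMonoidHom (α := T) p).ker = p) (P : ℤ[X]) :
    cntT p P (AddMonoidHom.id T) = cnt P (AddMonoidHom.id (ZMod p)) := by
  have : Fact p.Prime := ⟨hp⟩
  have hcyc : IsAddCyclic (nsmulAddMonoidHom (α := T) p).ker := isAddCyclic_of_prime_card hT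
  let e : ZMod p ≃+ (nsmulAddMonoidHom (α := T) p).ker :=
    (ZMod.ringEquivCongr hT.symm).toAddEquiv.trans (zmodAddCyclicAddEquiv hcyc)
  refine cntT_eq_cnt ((nsmulAddMonoidHom (α := T) p).ker.subtype.comp e.toAddMonoidHom) ?_
    (fun _ => rfl) p ?_ P
  · exact Subtype.val_injective.comp e.injective
  · intro x
    constructor
    · intro hx
      exact ⟨e.symm ⟨x, hx⟩, by
        change ((e (e.symm ⟨x, hx⟩) : (nsmulAddMonoidHom (α := T) p).ker) : T) = x
        rw [AddEquiv.apply_symm_apply]⟩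
    · rintro ⟨w, rfl⟩
      exact (e w).2

theorem cnt_id_zmod_pos (p : ℕ) [NeZero p] (P : ℤ[X]) :
    0 < cnt P (AddMonoidHom.id (ZMod p)) :=
  Nat.card_pos

end Fermat.Agent.S56.EC.Base
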