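/-
S56 / block EC / BASE CASE: section `SumKer`: the count for
`0 → M[p] → ∏ W_i[p] → T[p] → 0`.
-/
import Fermat.Agent.S56.EC.Base.Exact

set_option autoImplicit false

namespace Fermat.Agent.S56.EC.Base

open Polynomial

theorem SumKer.mem_ker_iff {X : Type*} [AddCommGroup X] (p : ℕ) (x : X) :
    x ∈ (nsmulAddMonoidHom (α := X) p).ker ↔ p • x = 0 := by
  rw [AddMonoidHom.mem_ker, nsmulAddMonoidHom_apply]

/-- the restriction of an operator to the `p`-torsion -/
def SumKer.res {X : Type*} [AddCommGroup X] (p : ℕ) (g : X →+ X) :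
    (nsmulAddMonoidHom (α := X) p).ker →+ (nsmulAddMonoidHom (α := X) p).ker :=
  (g.comp (AddSubgroup.subtype _)).codRestrict _ (fun x => by
    have hx := (SumKer.mem_ker_iff p (x : X)).1 x.2
    rw [SumKer.mem_ker_iff, AddMonoidHom.comp_apply, AddSubgroup.subtype_apply, ← map_nsmul, hx,
      map_zero])

theorem SumKer.coe_res {X : Type*} [AddCommGroup X] (p : ℕ) (g : X →+ X)
    (x : (nsmulAddMonoidHom (α := X) p).ker) : ((SumKer.res p g x : _) : X) = g x := rfl

theorem SumKer.cntT_eq {X : Type*} [AddCommGroup X] (p : ℕ) (P : ℤ[X]) (g : X →+ X) :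
    cntT p P g = cnt P (SumKer.res p g) := by
  refine cntT_eq_cnt (W := (nsmulAddMonoidHom (α := X) p).ker) (M := X)
    ((nsmulAddMonoidHom (α := X) p).ker.subtype) (AddSubgroup.subtype_injective _)
    (gW := SumKer.res p g) (gM := g) (fun w => SumKer.coe_res p g w) p (fun x => ?_) P
  constructor
  · intro h
    exact ⟨⟨x, (SumKer.mem_ker_iff p x).2 h⟩, rfl⟩
  · rintro ⟨w, rfl⟩
    exact (SumKer.mem_ker_iff p _).1 w.2

/-- the componentwise operator -/
def SumKer.piOp {I : Type*} {X : I → Type*} [∀ i, AddCommGroup (X i)] (g : ∀ i, X i →+ X i) :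
    (∀ i, X i) →+ (∀ i, X i) where
  toFun y i := g i (y i)
  map_zero' := by
    funext i
    exact map_zero (g i)
  map_add' a b := by
    funext i
    exact map_add (g i) (a i) (b i)

theorem SumKer.piOp_apply {I : Type*} {X : I → Type*} [∀ i, AddCommGroup (X i)]
    (g : ∀ i, X i →+ X i) (y : ∀ i, X i) (i : I) : SumKer.piOp g y i = g i (y i) := rfl

theorem SumKer.pe_piOp {I : Type*} {X : I → Type*} [∀ i, AddCommGroup (X i)]
    (g : ∀ i, X i →+ X i) (P : ℤ[X]) (y : ∀ i, X i) (i : I) :
    pe P (SumKer.piOp g) y i = pe P (g i) (y i) :=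
  pe_comm (Pi.evalAddMonoidHom X i) (g := SumKer.piOp g) (g' := g i) (fun _ => rfl) P y

theorem SumKer.mem_range_pe_piOp {I : Type*} {X : I → Type*} [∀ i, AddCommGroup (X i)]
    (g : ∀ i, X i →+ X i) (P : ℤ[X]) (y : ∀ i, X i) :
    y ∈ (pe P (SumKer.piOp g)).range ↔ ∀ i, y i ∈ (pe P (g i)).range := by
  constructor
  · rintro ⟨v, rfl⟩ i
    exact ⟨v i, (SumKer.pe_piOp g P v i).symm⟩
  · intro h
    choose v hv using h
    refine ⟨v, ?_⟩
    funext i
    rw [SumKer.pe_piOp, hv]

theorem SumKer.cnt_piOp {I : Type*} [Fintype I] {X : I → Type*} [∀ i, AddCommGroup (X i)]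
    (g : ∀ i, X i →+ X i) (P : ℤ[X]) : cnt P (SumKer.piOp g) = ∏ i, cnt P (g i) := by
  unfold cnt
  rw [← Nat.card_pi]
  exact Nat.card_congr ((Equiv.subtypeEquivRight (SumKer.mem_range_pe_piOp g P)).trans
    (Equiv.subtypePiEquivPi (p := fun i (b : X i) => b ∈ (pe P (g i)).range)))

/-- `0 → M[p] → ∏ W_i[p] → T[p] → 0` exact and equivariant (trivial operator on `T`). -/
theorem cntT_mul_eq_prod {M T : Type*} [AddCommGroup M] [AddCommGroup T] {I : Type*} [Fintype I]
    {W : I → Type*} [∀ i, AddCommGroup (W i)] (gM : M →+ M) (gW : ∀ i, W i →+ W i)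
    (l : ∀ i, M →+ W i) (t : ∀ i, W i →+ T) (hl : ∀ i x, l i (gM x) = gW i (l i x))
    (ht : ∀ i y, t i (gW i y) = t i y) {p m : ℕ} {P : ℤ[X]} (hP : IsIdemPoly p m P)
    (hord : ∀ i (y : W i), p • y = 0 → (gW i)^[m] y = y)
    (hfin : ∀ i, Finite (nsmulAddMonoidHom (α := W i) p).ker)
    (inj : ∀ x : M, p • x = 0 → (∀ i, l i x = 0) → x = 0)
    (recip : ∀ x : M, p • x = 0 → ∑ i, t i (l i x) = 0)
    (exist : ∀ y : ∀ i, W i, (∀ i, p • y i = 0) → ∑ i, t i (y i) = 0 →
      ∃ x : M, p • x = 0 ∧ ∀ i, l i x = y i)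
    (surj : ∀ c : T, p • c = 0 → ∃ i, ∃ y : W i, p • y = 0 ∧ t i y = c) :
    cntT p P gM * cntT p P (AddMonoidHom.id T) = ∏ i, cntT p P (gW i) := by
  classical
  -- the operator on the product
  set gV := SumKer.piOp (fun i => SumKer.res p (gW i)) with hgV
  -- the two maps
  let f : (nsmulAddMonoidHom (α := M) p).ker →+ (∀ i, (nsmulAddMonoidHom (α := W i) p).ker) :=
    { toFun := fun x i => ⟨l i x, by
        have hx := (SumKer.mem_ker_iff p (x : M)).1 x.2
        rw [SumKer.mem_ker_iff, ← map_nsmul, hx, map_zero]⟩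
      map_zero' := by
        funext i
        exact Subtype.ext (map_zero (l i))
      map_add' := fun a b => by
        funext i
        exact Subtype.ext (map_add (l i) (a : M) (b : M)) }
  have hf_apply : ∀ x i, ((f x i : _) : W i) = l i x := fun _ _ => rfl
  let h : (∀ i, (nsmulAddMonoidHom (α := W i) p).ker) →+ (nsmulAddMonoidHom (α := T) p).ker :=
    { toFun := fun y => ⟨∑ i, t i (y i), by
        rw [SumKer.mem_ker_iff, Finset.smul_sum]
        refine Finset.sum_eq_zero fun i _ => ?_
        have hy := (SumKer.mem_ker_iff p ((y i : _) : W i)).1 (y i).2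
        rw [← map_nsmul, hy, map_zero]⟩
      map_zero' := by
        apply Subtype.ext
        simp
      map_add' := fun a b => by
        apply Subtype.ext
        simp [Finset.sum_add_distrib] }
  have hh_apply : ∀ y, ((h y : _) : T) = ∑ i, t i (y i) := fun _ => rfl
  have hV : IsPM p m gV := by
    refine ⟨fun v => ?_, fun v => ?_⟩
    · funext i
      apply Subtype.ext
      exact (SumKer.mem_ker_iff p _).1 (v i).2
    · funext i
      apply Subtype.ext
      have hsc : Function.Semiconj
          (fun v : (∀ i, (nsmulAddMonoidHom (α := W i) p).ker) => ((v i : _) : W i))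
          gV (gW i) := fun _ => rfl
      have h1 := hsc.iterate_right m v
      have h2 : ((gV^[m] v i : _) : W i) = (gW i)^[m] ((v i : _) : W i) := h1
      rw [h2]
      exact hord i _ ((SumKer.mem_ker_iff p _).1 (v i).2)
  have key := cnt_eq_mul_of_exact f h (g' := SumKer.res p gM) (g := gV)
    (g'' := SumKer.res p (AddMonoidHom.id T))
    (fun v => by
      funext i
      apply Subtype.ext
      exact hl i v)
    (fun v => by
      apply Subtype.ext
      rw [hh_apply, SumKer.coe_res, AddMonoidHom.id_apply, hh_apply]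
      exact Finset.sum_congr rfl fun i _ => ht i _)
    (by
      rw [injective_iff_map_eq_zero]
      intro x hx
      apply Subtype.ext
      refine inj x ((SumKer.mem_ker_iff p _).1 x.2) fun i => ?_
      rw [← hf_apply, hx]
      rfl)
    (by
      intro c
      obtain ⟨i, y, hy, hyc⟩ := surj c ((SumKer.mem_ker_iff p _).1 c.2)
      refine ⟨Pi.single i ⟨y, (SumKer.mem_ker_iff p y).2 hy⟩, ?_⟩
      apply Subtype.ext
      rw [hh_apply, Finset.sum_eq_single i]
      · rw [Pi.single_eq_same]
        exact hyc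
      · intro j _ hj
        rw [Pi.single_eq_of_ne hj]
        exact map_zero (t j)
      · intro hi
        exact absurd (Finset.mem_univ i) hi)
    (by
      intro v
      constructor
      · intro hv
        have hv' : ∑ i, t i (v i) = 0 := by
          rw [← hh_apply, hv]
          rfl
        obtain ⟨x, hx, hxl⟩ := exist (fun i => v i) (fun i => (SumKer.mem_ker_iff p _).1 (v i).2) hv'
        refine ⟨⟨x, (SumKer.mem_ker_iff p x).2 hx⟩, ?_⟩
        funext i
        apply Subtype.ext
        exact hxl i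
      · rintro ⟨x, rfl⟩
        apply Subtype.ext
        rw [hh_apply]
        exact recip x ((SumKer.mem_ker_iff p _).1 x.2))
    hP hV
  rw [SumKer.cntT_eq, SumKer.cntT_eq, ← key, hgV, SumKer.cnt_piOp]
  exact Finset.prod_congr rfl fun i _ => (SumKer.cntT_eq p P (gW i)).symm

end Fermat.Agent.S56.EC.Base
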