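/-
S56 / block EC / BASE CASE, section `Six` (task EC-B-Six): multiplicativity of the `π`-Herbrand
quotient `#π(A/p) / #π(A[p])` in short exact sequences (six term snake sequence).
-/
import Fermat.Agent.S56.EC.Base.Exact

set_option autoImplicit false

namespace Fermat.Agent.S56.EC.Base

open Polynomial

/-! ### Rank-nullity for `cnt` and the six term lemma -/

section SixCount

/-- `#π V = #π (ker φ) * #π (im φ)` for an equivariant map `φ`. -/
theorem Six.cnt_eq_ker_mul_range {V W : Type*} [AddCommGroup V] [AddCommGroup W] (φ : V →+ W)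
    {gV : V →+ V} {gW : W →+ W} (hφ : ∀ v, φ (gV v) = gW (φ v)) {p m : ℕ} {P : ℤ[X]}
    (hP : IsIdemPoly p m P) (hV : IsPM p m gV) :
    cnt P gV = Nat.card (φ.ker.map (pe P gV)) * Nat.card (φ.range.map (pe P gW)) := by
  have hcomm : ∀ v, φ (pe P gV v) = pe P gW (φ v) := pe_comm φ hφ P
  set ψ : (pe P gV).range →+ W := φ.comp (pe P gV).range.subtype with hψ
  have h1 : Nat.card ψ.ker * Nat.card ψ.range = Nat.card (pe P gV).range := by
    rw [← AddSubgroup.index_ker]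
    exact AddSubgroup.card_mul_index _
  have h2 : ψ.range = φ.range.map (pe P gW) := by
    ext w
    constructor
    · rintro ⟨⟨_, v, rfl⟩, rfl⟩
      exact ⟨φ v, ⟨v, rfl⟩, (hcomm v).symm⟩
    · rintro ⟨_, ⟨v, rfl⟩, rfl⟩
      exact ⟨⟨pe P gV v, v, rfl⟩, hcomm v⟩
  have h3 : ψ.ker.map (pe P gV).range.subtype = φ.ker.map (pe P gV) := by
    ext x
    constructor
    · rintro ⟨⟨_, v, rfl⟩, hv, rfl⟩
      exact ⟨pe P gV v, hv, pe_idem hP hV v⟩
    · rintro ⟨k, hk, rfl⟩
      refine ⟨⟨pe P gV k, k, rfl⟩, ?_, rfl⟩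
      show φ (pe P gV k) = 0
      rw [hcomm, (show φ k = 0 from hk), map_zero]
  have h4 : Nat.card ψ.ker = Nat.card (φ.ker.map (pe P gV)) := by
    rw [← h3]
    exact Nat.card_congr (AddSubgroup.equivMapOfInjective _ _
      (AddSubgroup.subtype_injective _)).toEquiv
  rw [cnt, ← h1, h4, h2]

/-- the alternating product of the `cnt` in a six term exact sequence is `1`. -/
theorem Six.six_term {V₁ V₂ V₃ V₄ V₅ V₆ : Type*} [AddCommGroup V₁] [AddCommGroup V₂]
    [AddCommGroup V₃] [AddCommGroup V₄] [AddCommGroup V₅] [AddCommGroup V₆]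
    (φ₁ : V₁ →+ V₂) (φ₂ : V₂ →+ V₃) (φ₃ : V₃ →+ V₄) (φ₄ : V₄ →+ V₅) (φ₅ : V₅ →+ V₆)
    {g₁ : V₁ →+ V₁} {g₂ : V₂ →+ V₂} {g₃ : V₃ →+ V₃} {g₄ : V₄ →+ V₄} {g₅ : V₅ →+ V₅}
    {g₆ : V₆ →+ V₆}
    (h₁ : ∀ v, φ₁ (g₁ v) = g₂ (φ₁ v)) (h₂ : ∀ v, φ₂ (g₂ v) = g₃ (φ₂ v))
    (h₃ : ∀ v, φ₃ (g₃ v) = g₄ (φ₃ v)) (h₄ : ∀ v, φ₄ (g₄ v) = g₅ (φ₄ v))
    (h₅ : ∀ v, φ₅ (g₅ v) = g₆ (φ₅ v)) {p m : ℕ} {P : ℤ[X]} (hP : IsIdemPoly p m P)
    (pm₁ : IsPM p m g₁) (pm₂ : IsPM p m g₂) (pm₃ : IsPM p m g₃) (pm₄ : IsPM p m g₄)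
    (pm₅ : IsPM p m g₅) (inj : Function.Injective φ₁) (e₂ : φ₁.range = φ₂.ker)
    (e₃ : φ₂.range = φ₃.ker) (e₄ : φ₃.range = φ₄.ker) (e₅ : φ₄.range = φ₅.ker)
    (surj : Function.Surjective φ₅) :
    cnt P g₅ * (cnt P g₁ * cnt P g₃) = cnt P g₂ * (cnt P g₄ * cnt P g₆) := by
  have k₁ : Nat.card (φ₁.ker.map (pe P g₁)) = 1 := by
    rw [(AddMonoidHom.ker_eq_bot_iff φ₁).2 inj, AddSubgroup.map_bot]
    exact AddSubgroup.card_bot
  have k₆ : cnt P g₆ = Nat.card (φ₅.range.map (pe P g₆)) := by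
    rw [AddMonoidHom.range_eq_top.2 surj, ← AddMonoidHom.range_eq_map, cnt]
  rw [k₆, Six.cnt_eq_ker_mul_range φ₁ h₁ hP pm₁, Six.cnt_eq_ker_mul_range φ₂ h₂ hP pm₂,
    Six.cnt_eq_ker_mul_range φ₃ h₃ hP pm₃, Six.cnt_eq_ker_mul_range φ₄ h₄ hP pm₄,
    Six.cnt_eq_ker_mul_range φ₅ h₅ hP pm₅, k₁, ← e₂, ← e₃, ← e₄, ← e₅]
  ring

end SixCount

/-! ### The functors `A ↦ A[p]`, `A ↦ A/p` -/

section SixFunctors

variable {A B : Type*} [AddCommGroup A] [AddCommGroup B]

/-- `A[p]`. -/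
abbrev Six.T (p : ℕ) (A : Type*) [AddCommGroup A] : AddSubgroup A :=
  (nsmulAddMonoidHom (α := A) p).ker

/-- `pA`. -/
abbrev Six.R (p : ℕ) (A : Type*) [AddCommGroup A] : AddSubgroup A :=
  (nsmulAddMonoidHom (α := A) p).range

theorem Six.mem_T {p : ℕ} {a : A} : a ∈ Six.T p A ↔ p • a = 0 := Iff.rfl

theorem Six.mem_R {p : ℕ} {a : A} : a ∈ Six.R p A ↔ ∃ b : A, p • b = a := Iff.rfl

/-- the map induced on `A[p]`. -/
def Six.mapT (p : ℕ) (φ : A →+ B) : Six.T p A →+ Six.T p B :=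
  (φ.comp (Six.T p A).subtype).codRestrict (Six.T p B) fun v => by
    show p • φ (v : A) = 0
    rw [← map_nsmul, Six.mem_T.1 v.2, map_zero]

@[simp] theorem Six.coe_mapT (p : ℕ) (φ : A →+ B) (v : Six.T p A) :
    (Six.mapT p φ v : B) = φ (v : A) := rfl

/-- the map induced on `A/p`. -/
def Six.mapM (p : ℕ) (φ : A →+ B) : A ⧸ Six.R p A →+ B ⧸ Six.R p B :=
  QuotientAddGroup.map _ _ φ (by
    rintro _ ⟨b, rfl⟩
    exact ⟨φ b, (map_nsmul φ p b).symm⟩)

@[simp] theorem Six.mapM_mk (p : ℕ) (φ : A →+ B) (a : A) :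
    Six.mapM p φ (QuotientAddGroup.mk a) = QuotientAddGroup.mk (φ a) := rfl

theorem Six.mk_eq_zero {p : ℕ} {a : A} :
    (QuotientAddGroup.mk a : A ⧸ Six.R p A) = 0 ↔ ∃ b : A, p • b = a :=
  QuotientAddGroup.eq_zero_iff a

theorem Six.cntT_eq (p : ℕ) (P : ℤ[X]) (g : A →+ A) : cntT p P g = cnt P (Six.mapT p g) :=
  cntT_eq_cnt (Six.T p A).subtype (AddSubgroup.subtype_injective _) (fun _ => rfl) p
    (fun x => ⟨fun h => ⟨⟨x, h⟩, rfl⟩, by rintro ⟨w, rfl⟩; exact w.2⟩) P

theorem Six.cntM_eq (p : ℕ) (P : ℤ[X]) (g : A →+ A) : cntM p P g = cnt P (Six.mapM p g) :=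
  cntM_eq_cnt (QuotientAddGroup.mk' (Six.R p A)) (QuotientAddGroup.mk'_surjective _)
    (fun _ => rfl) p (fun _ => Six.mk_eq_zero) P

theorem Six.isPM_mapT {p m : ℕ} {g : A →+ A} (hord : ∀ a, g^[m] a = a) :
    IsPM p m (Six.mapT p g) where
  tors v := Subtype.ext v.2
  ord v := by
    apply Subtype.ext
    have h : Function.Semiconj (fun v : Six.T p A => (v : A)) (Six.mapT p g) g := fun _ => rfl
    exact ((h.iterate_right m) v).trans (hord _)

theorem Six.isPM_mapM {p m : ℕ} {g : A →+ A} (hord : ∀ a, g^[m] a = a) :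
    IsPM p m (Six.mapM p g) where
  tors v := by
    induction v using QuotientAddGroup.induction_on with
    | H a => exact Six.mk_eq_zero.2 ⟨a, rfl⟩
  ord v := by
    induction v using QuotientAddGroup.induction_on with
    | H a =>
      have h : Function.Semiconj (fun a : A => (QuotientAddGroup.mk a : A ⧸ Six.R p A)) g
        (Six.mapM p g) := fun _ => rfl
      rw [← (h.iterate_right m) a, hord]

end SixFunctors

/-! ### The connecting homomorphism -/

section SixDelta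

variable {A' A A'' : Type*} [AddCommGroup A'] [AddCommGroup A] [AddCommGroup A'']

theorem Six.exists_delta (f : A' →+ A) (h : A →+ A'') (finj : Function.Injective f)
    (hsurj : Function.Surjective h) (hex : ∀ v, h v = 0 ↔ ∃ v', f v' = v) (p : ℕ) :
    ∃ δ : Six.T p A'' →+ A' ⧸ Six.R p A',
      (∀ (x : Six.T p A'') (a : A) (a' : A'), h a = x → f a' = p • a →
        δ x = QuotientAddGroup.mk a') ∧
      ∀ x : Six.T p A'', ∃ (a : A) (a' : A'), h a = x ∧ f a' = p • a := by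
  have huniq : ∀ (a₁ a₂ : A) (a₁' a₂' : A'), h a₁ = h a₂ → f a₁' = p • a₁ → f a₂' = p • a₂ →
      (QuotientAddGroup.mk a₁' : A' ⧸ Six.R p A') = QuotientAddGroup.mk a₂' := by
    intro a₁ a₂ a₁' a₂' h12 h1 h2
    obtain ⟨b, hb⟩ := (hex (a₂ - a₁)).1 (by rw [map_sub, h12, sub_self])
    rw [QuotientAddGroup.eq]
    refine ⟨b, finj ?_⟩
    show f (p • b) = f (-a₁' + a₂')
    rw [map_nsmul, hb, map_add, map_neg, h1, h2, smul_sub]
    abel
  have hexist : ∀ x : Six.T p A'', ∃ (a : A) (a' : A'), h a = x ∧ f a' = p • a := by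
    intro x
    obtain ⟨a, ha⟩ := hsurj x
    obtain ⟨a', ha'⟩ := (hex (p • a)).1 (by rw [map_nsmul, ha]; exact x.2)
    exact ⟨a, a', ha, ha'⟩
  choose a a' ha ha' using hexist
  have hspec : ∀ (x : Six.T p A'') (b : A) (b' : A'), h b = x → f b' = p • b →
      (QuotientAddGroup.mk (a' x) : A' ⧸ Six.R p A') = QuotientAddGroup.mk b' :=
    fun x b b' hb hb' => huniq _ _ _ _ ((ha x).trans hb.symm) (ha' x) hb'
  refine ⟨AddMonoidHom.mk' (fun x => QuotientAddGroup.mk (a' x)) ?_, hspec,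
    fun x => ⟨a x, a' x, ha x, ha' x⟩⟩
  intro x y
  rw [← QuotientAddGroup.mk_add]
  apply hspec (x + y) (a x + a y) (a' x + a' y)
  · rw [map_add, ha, ha]
    rfl
  · rw [map_add, ha', ha', smul_add]

end SixDelta

/-! ### Positivity -/

section SixPos

variable {A : Type*} [AddCommGroup A] [AddGroup.FG A]

theorem Six.finite_T {p : ℕ} (hp : 0 < p) : (Six.T p A : Set A).Finite := by
  have : Module.Finite ℤ A := Module.Finite.iff_addGroup_fg.2 inferInstance
  have hfin : Finite (AddSubgroup.toIntSubmodule (Six.T p A)) := by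
    apply Module.finite_of_fg_torsion
    intro x
    refine ⟨⟨(p : ℤ), mem_nonZeroDivisors_of_ne_zero (by exact_mod_cast hp.ne')⟩, ?_⟩
    apply Subtype.ext
    show (p : ℤ) • (x : A) = 0
    rw [natCast_zsmul]
    exact x.2
  exact Set.toFinite (AddSubgroup.toIntSubmodule (Six.T p A) : Set A)

theorem Six.finite_quot {p : ℕ} (hp : 0 < p) : Finite (A ⧸ Six.R p A) := by
  apply AddCommGroup.finite_of_fg_isAddTorsion
  intro x
  rw [isOfFinAddOrder_iff_nsmul_eq_zero]
  refine ⟨p, hp, ?_⟩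
  induction x using QuotientAddGroup.induction_on with
  | H a => exact Six.mk_eq_zero.2 ⟨a, rfl⟩

end SixPos

theorem cntT_pos {A : Type*} [AddCommGroup A] [AddGroup.FG A] (g : A →+ A) {p : ℕ} (hp : 0 < p)
    (P : ℤ[X]) : 0 < cntT p P g := by
  have hfin : ((Six.T p A).map (pe P g) : Set A).Finite := (Six.finite_T hp).image _
  have : Finite ((Six.T p A).map (pe P g)) := hfin.to_subtype
  exact Nat.card_pos

theorem cntM_pos {A : Type*} [AddCommGroup A] [AddGroup.FG A] (g : A →+ A) {p : ℕ} (hp : 0 < p)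
    (P : ℤ[X]) : 0 < cntM p P g := by
  have := Six.finite_quot (A := A) hp
  have h1 : (Six.R p A).index ≠ 0 := AddSubgroup.index_ne_zero_of_finite
  exact Nat.pos_of_ne_zero fun h0 =>
    h1 (Nat.eq_zero_of_zero_dvd (h0 ▸ AddSubgroup.relIndex_dvd_index_of_normal (Six.R p A) _))

/-- **Multiplicativity of the `π`-Herbrand quotient** `h(A) = #π(A/p) / #π(A[p])` in short exact
sequences of finitely generated abelian groups with an operator of order dividing `m`
(the six term sequence `0 → A'[p] → A[p] → A''[p] → A'/p → A/p → A''/p → 0` is equivariant). -/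
theorem herbrand_mul {A' A A'' : Type*} [AddCommGroup A'] [AddCommGroup A] [AddCommGroup A'']
    [AddGroup.FG A] (f : A' →+ A) (h : A →+ A'') {g' : A' →+ A'} {g : A →+ A} {g'' : A'' →+ A''}
    (hf : ∀ v, f (g' v) = g (f v)) (hh : ∀ v, h (g v) = g'' (h v))
    (finj : Function.Injective f) (hsurj : Function.Surjective h)
    (hex : ∀ v, h v = 0 ↔ ∃ v', f v' = v) {p m : ℕ} (hp : 0 < p) {P : ℤ[X]}
    (hP : IsIdemPoly p m P) (hord : ∀ a, g^[m] a = a) :
    cntM p P g * (cntT p P g' * cntT p P g'') = cntT p P g * (cntM p P g' * cntM p P g'') := by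
  have hord' : ∀ a, g'^[m] a = a := by
    intro a
    apply finj
    have hs : Function.Semiconj f g' g := hf
    rw [(hs.iterate_right m) a, hord]
  have hord'' : ∀ a, g''^[m] a = a := by
    intro a
    obtain ⟨b, rfl⟩ := hsurj a
    have hs : Function.Semiconj h g g'' := hh
    rw [← (hs.iterate_right m) b, hord]
  have hhf : ∀ v', h (f v') = 0 := fun v' => (hex _).2 ⟨v', rfl⟩
  obtain ⟨δ, hδ, hδex⟩ := Six.exists_delta f h finj hsurj hex p
  rw [Six.cntM_eq, Six.cntM_eq, Six.cntM_eq, Six.cntT_eq, Six.cntT_eq, Six.cntT_eq]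
  refine Six.six_term (Six.mapT p f) (Six.mapT p h) δ (Six.mapM p f) (Six.mapM p h)
    ?_ ?_ ?_ ?_ ?_ hP (Six.isPM_mapT hord') (Six.isPM_mapT hord) (Six.isPM_mapT hord'')
    (Six.isPM_mapM hord') (Six.isPM_mapM hord) ?_ ?_ ?_ ?_ ?_ ?_
  · intro v
    exact Subtype.ext (hf v)
  · intro v
    exact Subtype.ext (hh v)
  · intro x
    obtain ⟨a, a', ha, ha'⟩ := hδex x
    rw [hδ x a a' ha ha', Six.mapM_mk]
    apply hδ _ (g a) (g' a')
    · rw [hh, ha]
      rfl
    · rw [hf, ha', map_nsmul]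
  · intro v
    induction v using QuotientAddGroup.induction_on with
    | H a => exact congrArg QuotientAddGroup.mk (hf a)
  · intro v
    induction v using QuotientAddGroup.induction_on with
    | H a => exact congrArg QuotientAddGroup.mk (hh a)
  · intro v w hvw
    exact Subtype.ext (finj (congrArg Subtype.val hvw))
  · -- exactness at `A[p]`
    ext v
    constructor
    · rintro ⟨w, rfl⟩
      exact Subtype.ext (hhf w)
    · intro hv
      obtain ⟨w, hw⟩ := (hex v).1 (congrArg Subtype.val hv)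
      refine ⟨⟨w, finj ?_⟩, Subtype.ext hw⟩
      show f (p • w) = f 0
      rw [map_nsmul, hw, map_zero]
      exact v.2
  · -- exactness at `A''[p]`
    ext x
    constructor
    · rintro ⟨v, rfl⟩
      show δ _ = 0
      rw [hδ (Six.mapT p h v) v 0 rfl (by rw [map_zero]; exact v.2.symm)]
      rfl
    · intro hx
      obtain ⟨a, a', ha, ha'⟩ := hδex x
      have h0 : δ x = 0 := hx
      rw [hδ x a a' ha ha', Six.mk_eq_zero] at h0
      obtain ⟨b, rfl⟩ := h0
      refine ⟨⟨a - f b, ?_⟩, Subtype.ext ?_⟩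
      · show p • (a - f b) = 0
        rw [smul_sub, ← ha', map_nsmul, sub_self]
      · show h (a - f b) = x
        rw [map_sub, hhf, sub_zero, ha]
  · -- exactness at `A'/p`
    ext y
    constructor
    · rintro ⟨x, rfl⟩
      obtain ⟨a, a', ha, ha'⟩ := hδex x
      show Six.mapM p f (δ x) = 0
      rw [hδ x a a' ha ha', Six.mapM_mk, Six.mk_eq_zero]
      exact ⟨a, ha'.symm⟩
    · intro hy
      induction y using QuotientAddGroup.induction_on with
      | H a' =>
        have h0 : Six.mapM p f (QuotientAddGroup.mk a') = 0 := hy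
        rw [Six.mapM_mk, Six.mk_eq_zero] at h0
        obtain ⟨a, ha⟩ := h0
        refine ⟨⟨h a, ?_⟩, hδ _ a a' rfl ha.symm⟩
        show p • h a = 0
        rw [← map_nsmul, ha, hhf]
  · -- exactness at `A/p`
    ext y
    constructor
    · rintro ⟨z, rfl⟩
      induction z using QuotientAddGroup.induction_on with
      | H a' =>
        show Six.mapM p h (Six.mapM p f (QuotientAddGroup.mk a')) = 0
        rw [Six.mapM_mk, Six.mapM_mk, hhf]
        rfl
    · intro hy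
      induction y using QuotientAddGroup.induction_on with
      | H a =>
        have h0 : Six.mapM p h (QuotientAddGroup.mk a) = 0 := hy
        rw [Six.mapM_mk, Six.mk_eq_zero] at h0
        obtain ⟨c'', hc''⟩ := h0
        obtain ⟨c, rfl⟩ := hsurj c''
        obtain ⟨a', ha'⟩ := (hex (a - p • c)).1 (by rw [map_sub, map_nsmul, hc'', sub_self])
        refine ⟨QuotientAddGroup.mk a', ?_⟩
        rw [Six.mapM_mk, ha', QuotientAddGroup.eq]
        exact ⟨c, by show p • c = -(a - p • c) + a; abel⟩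
  · intro y
    induction y using QuotientAddGroup.induction_on with
    | H a'' =>
      obtain ⟨a, rfl⟩ := hsurj a''
      exact ⟨QuotientAddGroup.mk a, rfl⟩

end Fermat.Agent.S56.EC.Base
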