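/-
S56 / block EC / BASE CASE: section `Herb` (task EC-B-Herb).  Owner: helper168.
The `π`-Herbrand quotient `h(A) = #π(A/p) / #π(A[p])` is `1` on finite groups, and is multiplicative
in four term sequences `0 → A₀ → A₁ → A₂ → (finite)`.
-/
import Fermat.Agent.S56.EC.Base.Six

set_option autoImplicit false

namespace Fermat.Agent.S56.EC.Base

open Polynomial

/-! ### Auxiliary: operators induced on stable subgroups and on quotients -/

/-- restriction of an operator to a stable subgroup -/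
def Herb.resHom {A : Type*} [AddCommGroup A] (g : A →+ A) (S : AddSubgroup A)
    (hS : ∀ a ∈ S, g a ∈ S) : S →+ S :=
  (g.comp S.subtype).codRestrict S (fun a => hS a a.2)

theorem Herb.resHom_coe {A : Type*} [AddCommGroup A] (g : A →+ A) (S : AddSubgroup A)
    (hS : ∀ a ∈ S, g a ∈ S) (a : S) : ((Herb.resHom g S hS a : S) : A) = g a := rfl

theorem Herb.resHom_iterate {A : Type*} [AddCommGroup A] (g : A →+ A) (S : AddSubgroup A)
    (hS : ∀ a ∈ S, g a ∈ S) (k : ℕ) (a : S) :
    (((Herb.resHom g S hS)^[k] a : S) : A) = g^[k] a := by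
  induction k generalizing a with
  | zero => rfl
  | succ k ih => rw [Function.iterate_succ_apply, ih, Function.iterate_succ_apply, Herb.resHom_coe]

/-- the operator induced on the quotient by a stable subgroup -/
def Herb.quotHom {A : Type*} [AddCommGroup A] (g : A →+ A) (S : AddSubgroup A)
    (hS : ∀ a ∈ S, g a ∈ S) : A ⧸ S →+ A ⧸ S :=
  QuotientAddGroup.map S S g (fun a ha => hS a ha)

theorem Herb.quotHom_mk {A : Type*} [AddCommGroup A] (g : A →+ A) (S : AddSubgroup A)
    (hS : ∀ a ∈ S, g a ∈ S) (a : A) :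
    Herb.quotHom g S hS (QuotientAddGroup.mk' S a) = QuotientAddGroup.mk' S (g a) := rfl

theorem Herb.quotHom_iterate {A : Type*} [AddCommGroup A] (g : A →+ A) (S : AddSubgroup A)
    (hS : ∀ a ∈ S, g a ∈ S) (k : ℕ) (a : A) :
    (Herb.quotHom g S hS)^[k] (QuotientAddGroup.mk' S a) = QuotientAddGroup.mk' S (g^[k] a) := by
  induction k generalizing a with
  | zero => rfl
  | succ k ih => rw [Function.iterate_succ_apply, Herb.quotHom_mk, ih, Function.iterate_succ_apply]

/-- the short exact sequence `0 → S → A → A/S → 0`. -/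
theorem Herb.herbrand_sub {A : Type*} [AddCommGroup A] [AddGroup.FG A] (g : A →+ A)
    (S : AddSubgroup A) (hS : ∀ a ∈ S, g a ∈ S) {p m : ℕ} (hp : 0 < p) {P : ℤ[X]}
    (hP : IsIdemPoly p m P) (hord : ∀ a, g^[m] a = a) :
    cntM p P g * (cntT p P (Herb.resHom g S hS) * cntT p P (Herb.quotHom g S hS)) =
      cntT p P g * (cntM p P (Herb.resHom g S hS) * cntM p P (Herb.quotHom g S hS)) := by
  refine herbrand_mul S.subtype (QuotientAddGroup.mk' S) (fun v => rfl) (fun v => rfl)
    (AddSubgroup.subtype_injective S) (QuotientAddGroup.mk'_surjective S) (fun v => ?_) hp hP hord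
  rw [QuotientAddGroup.mk'_apply, QuotientAddGroup.eq_zero_iff]
  constructor
  · intro hv
    exact ⟨⟨v, hv⟩, rfl⟩
  · rintro ⟨v', rfl⟩
    exact v'.2

theorem Herb.aux_finite (n : ℕ) : ∀ (A : Type*) [AddCommGroup A] [Finite A] (g : A →+ A) (p m : ℕ)
    (_ : 0 < p) (P : ℤ[X]) (_ : IsIdemPoly p m P) (_ : ∀ a, g^[m] a = a) (_ : Nat.card A = n),
    cntM p P g = cntT p P g := by
  induction n using Nat.strong_induction_on with
  | _ n ih =>
    intro A _ _ g p m hp P hP hord hn
    set S : AddSubgroup A := (nsmulAddMonoidHom (α := A) p).range with hSdef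
    have hS : ∀ a ∈ S, g a ∈ S := by
      rintro _ ⟨y, rfl⟩
      exact ⟨g y, (map_nsmul g p y).symm⟩
    by_cases htop : S = ⊤
    · -- multiplication by `p` is bijective
      have hsurj : Function.Surjective (nsmulAddMonoidHom (α := A) p) :=
        AddMonoidHom.range_eq_top.mp htop
      have hinj : Function.Injective (nsmulAddMonoidHom (α := A) p) :=
        Finite.injective_iff_surjective.mpr hsurj
      have hker : (nsmulAddMonoidHom (α := A) p).ker = ⊥ :=
        (AddMonoidHom.ker_eq_bot_iff _).mpr hinj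
      unfold cntM cntT
      rw [hker, ← hSdef, htop, AddSubgroup.relIndex_top_left, AddSubgroup.map_bot]
      exact (Nat.card_eq_one_iff_unique.mpr ⟨inferInstance, inferInstance⟩).symm
    · have hlt : Nat.card S < n := by
        rw [← hn]
        refine lt_of_le_of_ne (AddSubgroup.card_le_card_addGroup S) (fun e => htop ?_)
        exact AddSubgroup.eq_top_of_card_eq S e
      have h1 : cntM p P (Herb.resHom g S hS) = cntT p P (Herb.resHom g S hS) :=
        ih _ hlt S (Herb.resHom g S hS) p m hp P hP (fun a => Subtype.ext (by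
          rw [Herb.resHom_iterate, hord])) rfl
      have htors : ∀ v : A ⧸ S, p • v = 0 := by
        intro v
        obtain ⟨a, rfl⟩ := QuotientAddGroup.mk'_surjective S v
        rw [← map_nsmul, QuotientAddGroup.mk'_apply, QuotientAddGroup.eq_zero_iff]
        exact ⟨a, rfl⟩
      have h2 : cntM p P (Herb.quotHom g S hS) = cntT p P (Herb.quotHom g S hS) := by
        rw [cntM_eq_cnt_of_tors _ p htors P, cntT_eq_cnt_of_tors _ p htors P]
      have h3 := Herb.herbrand_sub g S hS hp hP hord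
      rw [h1, h2] at h3
      exact Nat.eq_of_mul_eq_mul_right
        (Nat.mul_pos (cntT_pos _ hp P) (cntT_pos _ hp P)) h3

/-! ### The statements -/

/-- `h(A) = 1` for finite `A`. -/
theorem cntM_eq_cntT_of_finite {A : Type*} [AddCommGroup A] [Finite A] {g : A →+ A} {p m : ℕ}
    (hp : 0 < p) {P : ℤ[X]} (hP : IsIdemPoly p m P) (hord : ∀ a, g^[m] a = a) :
    cntM p P g = cntT p P g :=
  Herb.aux_finite _ A g p m hp P hP hord rfl

/-- `0 → A₀ → A₁ → A₂ → (finite)` equivariant and exact: `h(A₁) = h(A₀) h(A₂)`. -/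
theorem herbrand_four {A₀ A₁ A₂ : Type*} [AddCommGroup A₀] [AddCommGroup A₁] [AddCommGroup A₂]
    [AddGroup.FG A₁] [AddGroup.FG A₂] (i : A₀ →+ A₁) (f : A₁ →+ A₂) {g₀ : A₀ →+ A₀}
    {g₁ : A₁ →+ A₁} {g₂ : A₂ →+ A₂} (hi : ∀ v, i (g₀ v) = g₁ (i v)) (hf : ∀ v, f (g₁ v) = g₂ (f v))
    (iinj : Function.Injective i) (hex : ∀ v, f v = 0 ↔ ∃ v', i v' = v)
    (hfin : Finite (A₂ ⧸ f.range)) {p m : ℕ} (hp : 0 < p) {P : ℤ[X]} (hP : IsIdemPoly p m P)
    (hord₁ : ∀ a, g₁^[m] a = a) (hord₂ : ∀ a, g₂^[m] a = a) :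
    cntM p P g₁ * (cntT p P g₀ * cntT p P g₂) = cntT p P g₁ * (cntM p P g₀ * cntM p P g₂) := by
  have hS : ∀ a ∈ f.range, g₂ a ∈ f.range := by
    rintro _ ⟨y, rfl⟩
    exact ⟨g₁ y, hf y⟩
  -- `0 → A₀ → A₁ → R → 0`
  have h1 : cntM p P g₁ * (cntT p P g₀ * cntT p P (Herb.resHom g₂ f.range hS)) =
      cntT p P g₁ * (cntM p P g₀ * cntM p P (Herb.resHom g₂ f.range hS)) := by
    refine herbrand_mul (g'' := Herb.resHom g₂ f.range hS) i f.rangeRestrict hi
      (fun v => Subtype.ext (hf v)) iinj f.rangeRestrict_surjective (fun v => ?_) hp hP hord₁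
    rw [← hex v]
    constructor
    · intro e
      exact congrArg Subtype.val e
    · intro e
      exact Subtype.ext e
  -- `0 → R → A₂ → A₂/R → 0`
  have h2 := Herb.herbrand_sub g₂ f.range hS hp hP hord₂
  have h3 : cntM p P (Herb.quotHom g₂ f.range hS) = cntT p P (Herb.quotHom g₂ f.range hS) := by
    refine cntM_eq_cntT_of_finite hp hP (fun v => ?_)
    obtain ⟨a, rfl⟩ := QuotientAddGroup.mk'_surjective f.range v
    rw [Herb.quotHom_iterate, hord₂]
  rw [h3] at h2
  have hq : 0 < cntT p P (Herb.quotHom g₂ f.range hS) := cntT_pos _ hp P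
  have hR : 0 < cntT p P (Herb.resHom g₂ f.range hS) := cntT_pos _ hp P
  have h2' : cntM p P g₂ * cntT p P (Herb.resHom g₂ f.range hS) =
      cntT p P g₂ * cntM p P (Herb.resHom g₂ f.range hS) := by
    refine Nat.eq_of_mul_eq_mul_right hq ?_
    rw [mul_assoc, mul_assoc]
    exact h2
  refine Nat.eq_of_mul_eq_mul_right hR ?_
  calc cntM p P g₁ * (cntT p P g₀ * cntT p P g₂) * cntT p P (Herb.resHom g₂ f.range hS)
      = cntM p P g₁ * (cntT p P g₀ * cntT p P (Herb.resHom g₂ f.range hS)) * cntT p P g₂ := by ring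
    _ = cntT p P g₁ * (cntM p P g₀ * cntM p P (Herb.resHom g₂ f.range hS)) * cntT p P g₂ := by
        rw [h1]
    _ = cntT p P g₁ * cntM p P g₀ * (cntT p P g₂ * cntM p P (Herb.resHom g₂ f.range hS)) := by ring
    _ = cntT p P g₁ * cntM p P g₀ * (cntM p P g₂ * cntT p P (Herb.resHom g₂ f.range hS)) := by
        rw [h2']
    _ = cntT p P g₁ * (cntM p P g₀ * cntM p P g₂) * cntT p P (Herb.resHom g₂ f.range hS) := by ring

end Fermat.Agent.S56.EC.Base
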