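/-
S56 / block EC / BASE CASE: export of the number field part (sub-architect helper283).  Assembly.
-/
import Fermat.Agent.S56.EC.Base.NF.AbsS
import Fermat.Agent.S56.EC.Base.NF.AbsU
import Fermat.Agent.S56.EC.Base.NF.Val
import Fermat.Agent.S56.EC.Base.NF.Single
import Fermat.Agent.S56.EC.Base.NF.QuotFin
import Fermat.Agent.S56.EC.Base.NF.UnitsIn
import Fermat.Agent.S56.EC.Base.NF.FG
import Fermat.Agent.S56.EC.Base.NF.Log
import Fermat.Agent.S56.EC.Base.NF.LogSpan
import Fermat.Agent.S56.EC.Base.NF.Ord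

set_option autoImplicit false

namespace Fermat.Agent.S56.EC.Base

open Polynomial NumberField IsDedekindDomain

variable {K : Type*} [Field K] [NumberField K]

/-- **Equivariant Dirichlet `T`-unit theorem, counted mod `p`**:
`h_π(E_T) · #π(𝔽_p) = #π(𝔽_p[T]) · #π(𝔽_p[Pl_∞])`, where `h_π(E) = #π(E/p) / #π(E[p])`. -/
theorem units_nf (σ : K ≃+* K) {m : ℕ} (hm : 0 < m) (hσ : ∀ x, σ^[m] x = x) {T : Type*} [Finite T]
    (pl : T → HeightOneSpectrum (𝓞 K)) (hpl : Function.Injective pl) (τ : T → T)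
    (hτ : ∀ t x, (pl (τ t)).valuation K x = (pl t).valuation K (σ x))
    {E : Type*} [AddCommGroup E] {gE : E →+ E} {ι : E →+ Additive Kˣ} (hE : IsUnitModel σ pl gE ι)
    {p : ℕ} (hp : 0 < p) {P : ℤ[X]} (hP : IsIdemPoly p m P) :
    cntM p P gE * cnt P (AddMonoidHom.id (ZMod p)) =
      cntT p P gE * (cnt P (perm τ (ZMod p)) * cnt P (perm (tauInf σ) (ZMod p))) := by
  classical
  obtain ⟨i, hi⟩ := NF.exists_incE hE
  haveI : AddGroup.FG (Additive (𝓞 K)ˣ) := NF.fg_units K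
  have hex : ∀ e, ((NF.valK pl).comp ι) e = 0 ↔ ∃ u, i u = e := fun e => NF.incE_exact hE hi e
  haveI : AddGroup.FG E := NF.fg_of_exact i ((NF.valK pl).comp ι) hex
  have hfin : Finite ((T → ℤ) ⧸ ((NF.valK pl).comp ι).range) := by
    apply NF.finite_quot_of_single
    intro t
    obtain ⟨e, h, hh, he⟩ := NF.exists_single hpl hE t
    exact ⟨h, hh, ⟨e, he⟩⟩
  have hA := NF.abs_sunits (gE := gE) (gU := NF.sigO σ) τ i ((NF.valK pl).comp ι)
    (fun u => NF.incE_sigO hE hi u)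
    (fun e => by
      show NF.valK pl (ι (gE e)) = _
      rw [hE.equiv, NF.valK_sigK σ pl τ hτ]
      rfl)
    (NF.incE_injective hi) hex hfin hp hP (NF.gE_iterate hσ hE) (NF.tau_iterate hσ hpl hτ)
  have hB := NF.abs_units (gU := NF.sigO σ) (tauInf σ) hm (NF.sigO_iterate hσ)
    (NF.tauInf_iterate hσ) ((NF.logK (K := K)).comp NF.incO)
    (fun u w => by
      show NF.logK (NF.incO (NF.sigO σ u)) w = NF.logK (NF.incO u) (tauInf σ w)
      rw [NF.incO_sigO, NF.logK_sigK])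
    (fun u h => NF.logK_incO_eq_zero u h) NF.logK_span (NF.finrank_units K) hp hP
  have hpos : 0 < cntT p P (NF.sigO σ) := cntT_pos _ hp P
  apply Nat.eq_of_mul_eq_mul_right hpos
  calc cntM p P gE * cnt P (AddMonoidHom.id (ZMod p)) * cntT p P (NF.sigO σ)
      = (cntM p P gE * cntT p P (NF.sigO σ)) * cnt P (AddMonoidHom.id (ZMod p)) := by ring
    _ = cntT p P gE * cnt P (perm τ (ZMod p)) *
          (cntM p P (NF.sigO σ) * cnt P (AddMonoidHom.id (ZMod p))) := by rw [hA]; ring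
    _ = cntT p P gE * (cnt P (perm τ (ZMod p)) * cnt P (perm (tauInf σ) (ZMod p))) *
          cntT p P (NF.sigO σ) := by rw [hB]; ring

end Fermat.Agent.S56.EC.Base
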