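/-
S56 / block EC / BASE CASE, section `Summand`: the cohomology of the direct summand `P(γ) A` is
`P(H^n γ) H^n(A)`; the same for the `(-1)`-eigenspace of `c`.
-/
import Fermat.Agent.S56.EC.Base.CohDefs
import Fermat.Agent.S56.EC.Base.Exact
import Fermat.Agent.S55.Units.T1.MuTriv

set_option autoImplicit false

namespace Fermat.Agent.S56.EC.Base

open Fermat.Agent.S55 Polynomial

variable {G : Type} [Group G] {𝓝 : LevelSys G} {A : Type} [AddCommGroup A] [DistribMulAction G A]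

theorem polyMap_apply_eq_pe (γ : A →+[G] A) (P : ℤ[X]) (a : A) :
    polyMap γ P a = pe P (γ : A →+ A) a := rfl

/-- `H^n(P(γ)) = P(H^n(γ))` -/
theorem hsm_map_polyMap (γ : A →+[G] A) (P : ℤ[X]) (n : ℕ) (x : Hsm 𝓝 A n) :
    Hsm.map (polyMap γ P) n x = pe P (Hsm.map γ n) x := by
  induction P using Polynomial.induction_on generalizing x with
  | C k =>
    rw [pe_C]
    exact Hsm.map_zsmul' k (fun a => by rw [polyMap_apply_eq_pe, pe_C]) n x
  | add P Q hP hQ =>
    rw [pe_add, ← hP, ← hQ]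
    exact Hsm.map_add' (fun a => by
      rw [polyMap_apply_eq_pe, polyMap_apply_eq_pe, polyMap_apply_eq_pe, pe_add]) n x
  | monomial d k ih =>
    rw [pow_succ, ← mul_assoc, pe_mul, pe_X, ← ih]
    exact Hsm.map_comp' (fun a => by
      rw [polyMap_apply_eq_pe, polyMap_apply_eq_pe, pe_mul, pe_X]
      rfl) n x

theorem hsm_map_iterate {γ : A →+[G] A} {m : ℕ} (h : ∀ a, (γ : A →+ A)^[m] a = a) (n : ℕ)
    (x : Hsm 𝓝 A n) : (Hsm.map γ n)^[m] x = x := by
  rw [← pe_X_pow, ← hsm_map_polyMap]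
  exact Hsm.map_id' (fun a => by rw [polyMap_apply_eq_pe, pe_X_pow]; exact h a) n x

theorem isPM_hsm {γ : A →+[G] A} {p m : ℕ} (h : IsPM p m (γ : A →+ A)) (n : ℕ) :
    IsPM p m (Hsm.map (𝓝 := 𝓝) γ n) :=
  ⟨fun x => Hsm.nsmul_eq_zero_of_coeff p h.tors n x, fun x => hsm_map_iterate h.ord n x⟩

theorem summand_pull_iterate_apply {X : Type} [MulAction G X] (ρ : X →[G] X) (k : ℕ)
    (f : IndMod X A) (x : X) :
    (((IndMod.pull A ρ : IndMod X A →+[G] IndMod X A) : IndMod X A →+ IndMod X A)^[k] f) x =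
      f (ρ^[k] x) := by
  induction k generalizing f with
  | zero => rfl
  | succ k ih =>
    rw [Function.iterate_succ_apply, ih, Function.iterate_succ_apply']
    rfl

theorem pull_iterate {X : Type} [MulAction G X] {ρ : X →[G] X} {m : ℕ} (hρ : ∀ x, ρ^[m] x = x)
    (f : IndMod X A) : ((IndMod.pull A ρ : IndMod X A →+[G] IndMod X A) : IndMod X A →+ IndMod X A)^[m] f = f := by
  ext x
  rw [summand_pull_iterate_apply, hρ]

theorem isPM_pull {X : Type} [MulAction G X] {ρ : X →[G] X} {p m : ℕ} (hρ : ∀ x, ρ^[m] x = x)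
    (hA : ∀ a : A, p • a = 0) :
    IsPM p m ((IndMod.pull A ρ : IndMod X A →+[G] IndMod X A) : IndMod X A →+ IndMod X A) :=
  ⟨fun f => by
    ext x
    rw [IndMod.nsmul_apply, hA]
    rfl, fun f => pull_iterate hρ f⟩

/-- elements of the summand are fixed by the projector -/
theorem summand_pe_incl {γ : A →+[G] A} {p m : ℕ} {P : ℤ[X]} (hP : IsIdemPoly p m P)
    (h : IsPM p m (γ : A →+ A)) (b : PolyRange γ P) :
    pe P (γ : A →+ A) ((GSub.range (polyMap γ P)).incl b) = (GSub.range (polyMap γ P)).incl b := by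
  obtain ⟨a, ha⟩ := (GSub.range (polyMap γ P)).incl_mem b
  rw [← ha]
  exact pe_idem hP h a

/-- the retraction of `H^n(π A) → H^n(A)` -/
theorem summand_leftInverse {γ : A →+[G] A} {p m : ℕ} {P : ℤ[X]} (hP : IsIdemPoly p m P)
    (h : IsPM p m (γ : A →+ A)) (n : ℕ) :
    Function.LeftInverse (Hsm.map (𝓝 := 𝓝) (GSub.rangeRestrict (polyMap γ P)) n)
      (Hsm.map (𝓝 := 𝓝) (GSub.range (polyMap γ P)).inclG n) := by
  intro y
  rw [← Hsm.map_comp]
  exact Hsm.map_id' (fun b => (GSub.range (polyMap γ P)).incl_injective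
    (summand_pe_incl hP h b)) n y

theorem summand_range_eq {γ : A →+[G] A} {p m : ℕ} {P : ℤ[X]} (hP : IsIdemPoly p m P)
    (h : IsPM p m (γ : A →+ A)) (n : ℕ) :
    (Hsm.map (𝓝 := 𝓝) (GSub.range (polyMap γ P)).inclG n).range =
      (pe P (Hsm.map (𝓝 := 𝓝) γ n)).range := by
  have hcomp : ∀ x : Hsm 𝓝 A n, pe P (Hsm.map γ n) x =
      Hsm.map (GSub.range (polyMap γ P)).inclG n
        (Hsm.map (GSub.rangeRestrict (polyMap γ P)) n x) := fun x => by
    rw [← hsm_map_polyMap]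
    exact Hsm.map_comp' (fun _ => rfl) n x
  ext z
  constructor
  · rintro ⟨y, rfl⟩
    exact ⟨Hsm.map (GSub.range (polyMap γ P)).inclG n y, by
      rw [hcomp, summand_leftInverse hP h n y]⟩
  · rintro ⟨x, rfl⟩
    exact ⟨_, (hcomp x).symm⟩

/-- the cohomology of the direct summand `π A`, `π = P(γ)`, is `π H^n(A)` -/
theorem card_hsm_polyRange {γ : A →+[G] A} {p m : ℕ} {P : ℤ[X]} (hP : IsIdemPoly p m P)
    (h : IsPM p m (γ : A →+ A)) (n : ℕ) :
    Nat.card (Hsm 𝓝 (PolyRange γ P) n) = cnt P (Hsm.map (𝓝 := 𝓝) γ n) := by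
  unfold cnt
  rw [← summand_range_eq hP h n]
  exact Nat.card_congr
    (AddMonoidHom.ofInjective (summand_leftInverse hP h n).injective).toEquiv

theorem finite_hsm_polyRange {γ : A →+[G] A} {p m : ℕ} {P : ℤ[X]} (hP : IsIdemPoly p m P)
    (h : IsPM p m (γ : A →+ A)) (n : ℕ) [Finite (Hsm 𝓝 A n)] :
    Finite (Hsm 𝓝 (PolyRange γ P) n) :=
  Finite.of_injective _ (summand_leftInverse (𝓝 := 𝓝) hP h n).injective

/-- `P(γ)` on the `(-1)`-eigenspace -/
theorem summand_coe_pe_minusOp (c : G) (γ : A →+[G] A) (P : ℤ[X]) (a : minusSub c A) :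
    ((pe P (minusOp c γ) a : minusSub c A) : A) = pe P (γ : A →+ A) a.1 :=
  pe_comm (minusSub c A).subtype (g := minusOp c γ) (g' := (γ : A →+ A)) (fun _ => rfl) P a

/-- the `(-1)`-eigenspace of `c` on the direct summand `π A` is `π (A^{c = -1})` -/
theorem card_minus_polyRange {γ : A →+[G] A} {p m : ℕ} {P : ℤ[X]} (hP : IsIdemPoly p m P)
    (h : IsPM p m (γ : A →+ A)) (c : G) :
    Nat.card (Minus c (PolyRange γ P)) = cnt P (minusOp c γ) := by
  unfold cnt
  let e : Minus c (PolyRange γ P) → minusSub c A := fun n =>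
    ⟨(GSub.range (polyMap γ P)).incl n.1, by
      show c • (GSub.range (polyMap γ P)).incl n.1 = -(GSub.range (polyMap γ P)).incl n.1
      rw [← GSub.incl_smul, n.2, map_neg]⟩
  let f : Minus c (PolyRange γ P) → (pe P (minusOp c γ)).range := fun n =>
    ⟨e n, ⟨e n, Subtype.ext (by
      rw [summand_coe_pe_minusOp]
      exact summand_pe_incl hP h n.1)⟩⟩
  refine Nat.card_congr (Equiv.ofBijective f ⟨fun n n' hnn => ?_, ?_⟩)
  · have h1 : (GSub.range (polyMap γ P)).incl n.1 = (GSub.range (polyMap γ P)).incl n'.1 :=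
      congrArg (fun z : (pe P (minusOp c γ)).range => ((z : minusSub c A) : A)) hnn
    exact Subtype.ext ((GSub.range (polyMap γ P)).incl_injective h1)
  · rintro ⟨a, b, hb⟩
    have hb' : polyMap γ P b.1 = a.1 := by
      rw [polyMap_apply_eq_pe, ← summand_coe_pe_minusOp, hb]
    refine ⟨⟨(GSub.range (polyMap γ P)).mkMod a.1 ⟨b.1, hb'⟩, ?_⟩, ?_⟩
    · apply (GSub.range (polyMap γ P)).incl_injective
      rw [GSub.incl_smul, map_neg]
      exact a.2
    · exact Subtype.ext (Subtype.ext rfl)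

end Fermat.Agent.S56.EC.Base
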