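/-
S56 / block EC / BASE CASE, section `KummerEq` (architect helper83, proofs helper151):
the equivariant Kummer count on `H^n_S(μ_X)`.
-/
import Fermat.Agent.S56.EC.Base.Summand
import Fermat.Agent.S55.Units.T1.Kummer
import Fermat.Agent.S55.Coh.LESExact
import Fermat.Agent.S55.Coh.IndApi
import Fermat.Agent.S55.Bridge.MuCoef

set_option autoImplicit false

namespace Fermat.Agent.S56.EC.Base

open Fermat.Agent.S55 Polynomial

section abstract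

variable {G : Type} [Group G] {𝓝 : LevelSys G} {A B : Type} [AddCommGroup A] [DistribMulAction G A]
  [AddCommGroup B] [DistribMulAction G B]

/-- equivariance of `H^n(φ)` -/
theorem kummerEq_map_comm {φ : A →+[G] B} (α : A →+[G] A) (β : B →+[G] B)
    (hαβ : ∀ a, φ (α a) = β (φ a)) (n : ℕ) (x : Hsm 𝓝 A n) :
    Hsm.map φ n (Hsm.map α n x) = Hsm.map β n (Hsm.map φ n x) := by
  rw [← Hsm.map_comp, ← Hsm.map_comp,
    Hsm.map_congr (φ := φ.comp α) (φ' := β.comp φ) (fun a => hαβ a) n]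

/-- equivariant Kummer count in degree `0`: `π H^0(A) = π (H^0(B)[p])` -/
theorem cnt_kummer_zero [Smooth 𝓝 B] {φ : A →+[G] B} {ψ : B →+[G] B} (h : ShortExact φ ψ) (p : ℕ)
    (hψ : ∀ b, ψ b = p • b) (α : A →+[G] A) (β : B →+[G] B) (hαβ : ∀ a, φ (α a) = β (φ a))
    (P : ℤ[X]) :
    cnt P (Hsm.map (𝓝 := 𝓝) α 0) = cntT p P (Hsm.map (𝓝 := 𝓝) β 0) := by
  refine (cntT_eq_cnt (Hsm.map (𝓝 := 𝓝) φ 0) (Hsm.map_injective_zero h.inj)
    (kummerEq_map_comm α β hαβ 0) p ?_ P).symm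
  intro x
  rw [← Hsm.map_nsmul' p hψ 0 x, Hsm.exact_map_map h 0 x]
  rfl

/-- equivariant Kummer count: `#π H^{n+1}(A) = #π (H^n(B)/p) · #π (H^{n+1}(B)[p])` -/
theorem cnt_kummer_succ [Smooth 𝓝 B] {φ : A →+[G] B} {ψ : B →+[G] B} (h : ShortExact φ ψ) (p : ℕ)
    (hψ : ∀ b, ψ b = p • b) (α : A →+[G] A) (β : B →+[G] B) (hαβ : ∀ a, φ (α a) = β (φ a))
    {m : ℕ} (hα : IsPM p m (α : A →+ A)) {P : ℤ[X]} (hP : IsIdemPoly p m P) (n : ℕ) :
    cnt P (Hsm.map (𝓝 := 𝓝) α (n + 1)) =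
      cntM p P (Hsm.map (𝓝 := 𝓝) β n) * cntT p P (Hsm.map (𝓝 := 𝓝) β (n + 1)) := by
  refine cnt_eq_cntM_mul_cntT (Hsm.delta h n) (Hsm.map φ (n + 1)) ?_
    (kummerEq_map_comm α β hαβ (n + 1)) hP (isPM_hsm hα (n + 1)) ?_ ?_ ?_
  · intro x
    exact Hsm.delta_naturality h h α β β (fun a => (hαβ a).symm)
      (fun b => by rw [hψ, hψ, map_nsmul]) n x
  · intro x
    rw [Hsm.exact_map_delta h n x]
    constructor
    · rintro ⟨y, rfl⟩
      exact ⟨y, (Hsm.map_nsmul' p hψ n y).symm⟩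
    · rintro ⟨y, rfl⟩
      exact ⟨y, Hsm.map_nsmul' p hψ n y⟩
  · intro x
    rw [Hsm.exact_delta_map h n x]
    rfl
  · intro x
    rw [← Hsm.map_nsmul' p hψ (n + 1) x, Hsm.exact_map_map h (n + 1) x]
    rfl

end abstract

variable {S : Finset Nat.Primes} {p : ℕ} [Fact p.Prime] {X : Type} [MulAction GQ X] [Finite X]
  [SmoothSet (lvlS S) X]

theorem cnt_mu_zero (hpS : ExtCitation.pPrime p ∈ S) (ρ : X →[GQ] X) (P : ℤ[X]) :
    cnt P (Hsm.map (𝓝 := lvlS S) (IndMod.pull (Mu p) ρ) 0) =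
      cntT p P (Hsm.map (𝓝 := lvlS S) (IndMod.pull (ESx S) ρ) 0) := by
  obtain ⟨φ, ψ, hex, hψ, -⟩ := exists_kummer (S := S) (p := p) hpS
  have hexX := IndMod.shortExact_mapCoeff X hex
  have hψX : ∀ b, IndMod.mapCoeff X ψ b = p • b := by
    intro b
    ext x
    exact hψ (b x)
  exact cnt_kummer_zero hexX p hψX _ _ (fun a => IndMod.mapCoeff_pull φ ρ a) P

theorem cnt_mu_succ (hpS : ExtCitation.pPrime p ∈ S) (ρ : X →[GQ] X) {m : ℕ}
    (hρ : ∀ x, ρ^[m] x = x) {P : ℤ[X]} (hP : IsIdemPoly p m P) (n : ℕ) :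
    cnt P (Hsm.map (𝓝 := lvlS S) (IndMod.pull (Mu p) ρ) (n + 1)) =
      cntM p P (Hsm.map (𝓝 := lvlS S) (IndMod.pull (ESx S) ρ) n) *
        cntT p P (Hsm.map (𝓝 := lvlS S) (IndMod.pull (ESx S) ρ) (n + 1)) := by
  obtain ⟨φ, ψ, hex, hψ, -⟩ := exists_kummer (S := S) (p := p) hpS
  have hexX := IndMod.shortExact_mapCoeff X hex
  have hψX : ∀ b, IndMod.mapCoeff X ψ b = p • b := by
    intro b
    ext x
    exact hψ (b x)
  exact cnt_kummer_succ hexX p hψX _ _ (fun a => IndMod.mapCoeff_pull φ ρ a)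
    (isPM_pull hρ (Bridge.coefMu S hpS).ptors) hP n

end Fermat.Agent.S56.EC.Base
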