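/-
S56 / block EC / BASE CASE (helper83): THE EXPORT `ec_base`, proved from
* `Base/Summand.lean`  : `H^i_S(π μ_X) = π H^i_S(μ_X)`,
* `Base/KummerEq.lean` : the equivariant Kummer sequence,
* `Base/Herb.lean`     : `#π(A/p) = #π(A[p])` for finite `A` (applied to `H^1_S(E_X)`),
* `Base/Dict/*` (helper58) : `card_minus`, `cntT_H2E`, `units_count`,
* S55 : `U4Tors`, `UnitInput`, finiteness.

-/
import Fermat.Agent.S56.EC.Base.Summand
import Fermat.Agent.S56.EC.Base.KummerEq
import Fermat.Agent.S56.EC.Base.Herb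
import Fermat.Agent.S56.EC.Base.Dict.ConjBasic
import Fermat.Agent.S56.EC.Base.Dict.Minus
import Fermat.Agent.S56.EC.Base.Dict.LocMain
import Fermat.Agent.S56.EC.Base.Dict.UnitsCount
import Fermat.Agent.S56.EC.Mult.Input

set_option autoImplicit false

namespace Fermat.Agent.S56.EC.Base

open Fermat.Agent.S55 Polynomial

/-- the arithmetic of the final count -/
theorem ec_arith {a0 m0 t1 t2 z l i : ℕ} (hz : 0 < z) (h2 : t2 * z = l)
    (hu : m0 * z = a0 * (l * i)) : a0 * (t1 * t2) * i = m0 * t1 := by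
  apply Nat.eq_of_mul_eq_mul_right hz
  calc a0 * (t1 * t2) * i * z = a0 * ((t2 * z) * i) * t1 := by ring
    _ = m0 * z * t1 := by rw [h2, hu]
    _ = m0 * t1 * z := by ring

variable {S : Finset Nat.Primes} {p : ℕ} [Fact p.Prime]

/-- **The base case of the global Euler characteristic formula.** -/
theorem ec_base (hp2 : p ≠ 2) (hpS : ExtCitation.pPrime p ∈ S) (c : GQ) (hc : IsConj c)
    (U : Subgroup GQ) (hU : U ∈ (lvlS S).carrier) (hUμ : ActsTrivially U (Mu p)) (s : GQ)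
    (hs : ∀ u ∈ U, s⁻¹ * u * s ∈ U) (m : ℕ) (hm : ¬ p ∣ m) (hsm : s ^ m ∈ U) (P : ℤ[X])
    (hP : EC.IsIdemPoly p m P) :
    ECProp S c (PolyRange (IndMod.pull (Mu p) (cosetRight U s hs)) P) := by
  have hp : p.Prime := Fact.out
  have hP' : IsIdemPoly p m P := hP
  have hm0 : 0 < m := Nat.pos_of_ne_zero (by rintro rfl; exact hm (dvd_zero p))
  have hUo : (lvlS S).IsOpen U := ⟨U, hU, le_rfl⟩
  have hS : S.Nonempty := ⟨_, hpS⟩
  have := hUo.finiteIndex
  have : Finite (GQ ⧸ U) := Subgroup.finite_quotient_of_finiteIndex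
  have : SmoothSet (lvlS S) (GQ ⧸ U) := SmoothSet.quotient _ hUo
  have : SmoothSet lvlAll (GQ ⧸ U) := by
    obtain ⟨N', hN', hle'⟩ := lvlS_le_lvlAll S U hU
    exact SmoothSet.quotient _ ⟨N', hN', hle'⟩
  set ρ := cosetRight U s hs with hρdef
  have hρ : ∀ x, ρ^[m] x = x := by
    intro x
    induction x using QuotientGroup.induction_on with
    | H g =>
      rw [hρdef, cosetRight_iterate, QuotientGroup.eq]
      simpa using hsm
  -- inputs from S55
  have L : ∀ q, LocPkg p q := fun q => Classical.choice (Asm.locPkg_exists p q)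
  have N := Dict.nitOut_of_locPkg hp hp2 L
  have B := brPkg hp2 L N
  have h4 : U4Tors S L (GQ ⧸ U) :=
    T1.u4Tors_of hpS L (Units.needL7_of_locPkg L S) (Units.needB1_of_brPkg B)
      (Units.needB3_of_brPkg B S) (Units.needB4_of_brPkg B S hpS) U hUo hUμ
  have hI := Units.Cl.unitInput S hp hp2 U hUo hUμ
  have hfin := Mult.fin2_mu hp2 hpS U hUo hUμ
  have := hfin.h0
  have := hfin.h1
  have := hfin.h2
  have := hI.h1
  have hμ : ∀ a : Mu p, p • a = 0 := (Bridge.coefMu S hpS).ptors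
  have hPM := isPM_pull (A := Mu p) (p := p) hρ hμ
  -- the counts
  have c0 := card_hsm_polyRange (𝓝 := lvlS S) hP' hPM 0
  have c1 := card_hsm_polyRange (𝓝 := lvlS S) hP' hPM 1
  have c2 := card_hsm_polyRange (𝓝 := lvlS S) hP' hPM 2
  have k0 := cnt_mu_zero (S := S) (p := p) hpS ρ P
  have k1 := cnt_mu_succ (S := S) (p := p) hpS ρ hρ hP' 0
  have k2 := cnt_mu_succ (S := S) (p := p) hpS ρ hρ hP' 1
  have e1 : cntM p P (Hsm.map (𝓝 := lvlS S) (IndMod.pull (ESx S) ρ) 1) =
      cntT p P (Hsm.map (𝓝 := lvlS S) (IndMod.pull (ESx S) ρ) 1) :=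
    cntM_eq_cntT_of_finite hp.pos hP' (hsm_map_iterate (pull_iterate hρ) 1)
  have l2 := cntT_H2E L hS h4 ρ hρ hm0 hP'
  have u0 := units_count (S := S) (p := p) hc U hU s hs hm0 hsm hP'
  have cm := card_minus (p := p) (fun z => IsConj.smul_mu hc hp.pos z) ρ hρ hP'
  have hz : 0 < cnt P (AddMonoidHom.id (ZMod p)) := by
    have : NeZero p := ⟨hp.ne_zero⟩
    exact cnt_id_zmod_pos p P
  refine ⟨finite_hsm_polyRange hP' hPM 0, finite_hsm_polyRange hP' hPM 1,
    finite_hsm_polyRange hP' hPM 2, ?_⟩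
  simp only [Nat.reduceAdd] at k1 k2
  rw [c0, c1, c2, cm, k0, k1, k2, e1]
  exact ec_arith hz l2 u0

end Fermat.Agent.S56.EC.Base
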