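/-
S56 / block EC / BASE CASE, section `LocNat`: localisation and the sum of the local invariants are
compatible with the operator induced by `ρ`.
-/
import Fermat.Agent.S56.EC.Base.Summand
import Fermat.Agent.S55.Coh.ResApi
import Fermat.Agent.S55.Coh.IndApi

set_option autoImplicit false

namespace Fermat.Agent.S56.EC.Base

open Fermat.Agent.S55 Polynomial

variable {S : Finset Nat.Primes} {p : ℕ} {X : Type} [MulAction GQ X]

/-- localisation is equivariant -/
theorem locE_pull (ρ : X →[GQ] X) (q : Nat.Primes) (n : ℕ)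
    (x : Hsm (lvlS S) (IndMod X (ESx S)) n) :
    locE S X q n (Hsm.map (IndMod.pull (ESx S) ρ) n x) = locOp q ρ n (locE S X q n x) := by
  induction x using Hsm.induction_on with
  | h z => rfl

/-- the iterates of `ResMod.map f γ` are those of `γ`. -/
theorem locNat_resMap_iterate {G H : Type} [Group G] [Group H] (f : H →* G) {A : Type}
    [AddCommGroup A] [DistribMulAction G A] (γ : A →+[G] A) (k : ℕ) (a : ResMod f A) :
    ((ResMod.map f γ : ResMod f A →+[H] ResMod f A) : ResMod f A →+ ResMod f A)^[k] a =
      ResMod.toRes f (((γ : A →+ A))^[k] ((ResMod.toRes f).symm a)) := by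
  induction k generalizing a with
  | zero => rfl
  | succ k ih =>
    rw [Function.iterate_succ_apply, ih, Function.iterate_succ_apply]
    rfl

theorem locOp_iterate (q : Nat.Primes) {ρ : X →[GQ] X} {m : ℕ} (hρ : ∀ x, ρ^[m] x = x) (n : ℕ)
    (y : Hloc q (IndMod X Kx) n) : (locOp q ρ n)^[m] y = y := by
  unfold locOp
  refine hsm_map_iterate (fun a => ?_) n y
  rw [locNat_resMap_iterate, pull_iterate hρ]
  rfl

/-- the sum of the local invariants over `X` is invariant under `ρ` -/
theorem invX_locOp [Finite X] {q : Nat.Primes} (L : LocPkg p q) {ρ : X →[GQ] X}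
    (hρ : Function.Bijective ρ) (y : Hloc q (IndMod X Kx) 2) :
    invX L X (locOp q ρ 2 y) = invX L X y := by
  unfold invX locOp
  rw [AddMonoidHom.comp_apply, AddMonoidHom.comp_apply]
  congr 1
  refine (Hsm.map_comp' (fun a => ?_) 2 y).symm
  obtain ⟨a, rfl⟩ := (ResMod.toRes (ιv q)).surjective a
  rw [ResMod.map_toRes, ResMod.map_toRes, ResMod.map_toRes]
  congr 1
  rw [IndMod.sum_def, IndMod.sum_def]
  exact (finsum_comp_equiv (Equiv.ofBijective ρ hρ) (f := fun x => a x)).symm

end Fermat.Agent.S56.EC.Base
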