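/-
S56 / block EC / BASE CASE: section `LocTors` (owner helper158): the vector of local invariants is
bijective on the `p`-torsion.
-/
import Fermat.Agent.S56.EC.Base.WIP.LocVec
import Fermat.Agent.S55.Units.T1.LocalCount

set_option autoImplicit false

namespace Fermat.Agent.S56.EC.Base

open Fermat.Agent.S55 Polynomial

variable {p : ℕ} {q : Nat.Primes} {X : Type} [MulAction GQ X] [Finite X] [SmoothSet lvlAll X]

/-- the vector of local invariants is injective on the `p`-torsion -/
theorem invVec_inj (L : LocPkg p q) (y : Hloc q (IndMod X Kx) 2) (hy : p • y = 0)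
    (h : invVec L X y = 0) : y = 0 := by
  apply (locDecomp_bijective q X 2).1
  funext ω
  show locDecomp q X 2 ω y = locDecomp q X 2 ω 0
  rw [map_zero]
  refine L.L3inj ω.orbit _ ⟨1, ?_⟩ (congrFun h ω)
  rw [pow_one, ← map_nsmul, hy, map_zero]

/-- the vector of local invariants maps the `p`-torsion onto the `p`-torsion -/
theorem invVec_surj (L : LocPkg p q) (c : LocOrb q X → QZ) (hc : p • c = 0) :
    ∃ y : Hloc q (IndMod X Kx) 2, p • y = 0 ∧ invVec L X y = c := by
  have key : ∀ ω : LocOrb q X, ∃ v : HKY q ω.orbit 2, p • v = 0 ∧ invY q ω.orbit L.inv v = c ω := by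
    intro ω
    have : Nonempty ω.orbit := (MulAction.orbitRel.Quotient.nonempty_orbit ω).to_subtype
    have hcω : p • c ω = 0 := congrFun hc ω
    obtain ⟨v, hv, hvc⟩ := L.L3surj ω.orbit (c ω) ⟨1, by rw [pow_one]; exact hcω⟩
    refine ⟨v, ?_, hvc⟩
    obtain ⟨n, hn⟩ := hv
    refine L.L3inj ω.orbit _ ⟨n, ?_⟩ (by rw [map_nsmul, hvc, hcω])
    rw [smul_comm, hn, smul_zero]
  choose v hv hvc using key
  obtain ⟨y, hy⟩ := (locDecomp_bijective q X 2).2 v
  have hyω : ∀ ω, locDecomp q X 2 ω y = v ω := fun ω => congrFun hy ω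
  refine ⟨y, ?_, ?_⟩
  · apply (locDecomp_bijective q X 2).1
    funext ω
    show locDecomp q X 2 ω (p • y) = locDecomp q X 2 ω 0
    rw [map_zero, map_nsmul, hyω, hv]
  · funext ω
    rw [invVec_apply, hyω, hvc]

theorem finite_tors_Hloc (hp : 0 < p) (L : LocPkg p q) :
    Finite (nsmulAddMonoidHom (α := Hloc q (IndMod X Kx) 2) p).ker := by
  have hfinO : Finite (LocOrb q X) := Quotient.finite _
  have hfinQ : Finite (nsmulAddMonoidHom (α := QZ) p).ker := by
    refine Nat.finite_of_card_ne_zero ?_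
    have h := torsCard_QZ p hp
    unfold torsCard at h
    rw [h]
    exact hp.ne'
  let f : (nsmulAddMonoidHom (α := Hloc q (IndMod X Kx) 2) p).ker →
      (LocOrb q X → (nsmulAddMonoidHom (α := QZ) p).ker) := fun y ω =>
    ⟨invVec L X y.1 ω, by
      have hy : p • (y : Hloc q (IndMod X Kx) 2) = 0 := y.2
      show p • invVec L X y.1 ω = 0
      have h1 : p • invVec L X y.1 = 0 := by rw [← map_nsmul, hy, map_zero]
      exact congrFun h1 ω⟩
  refine Finite.of_injective f ?_
  intro a b hab
  have ha : p • (a : Hloc q (IndMod X Kx) 2) = 0 := a.2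
  have hb : p • (b : Hloc q (IndMod X Kx) 2) = 0 := b.2
  have h1 : invVec L X a.1 = invVec L X b.1 := by
    funext ω
    exact congrArg Subtype.val (congrFun hab ω)
  have h2 : (a : Hloc q (IndMod X Kx) 2) - b = 0 :=
    invVec_inj L _ (by rw [smul_sub, ha, hb, sub_zero]) (by rw [map_sub, h1, sub_self])
  exact Subtype.ext (sub_eq_zero.1 h2)

omit [SmoothSet lvlAll X] in
theorem invX_eq_sum_invVec [Fintype (LocOrb q X)] (L : LocPkg p q) (y : Hloc q (IndMod X Kx) 2) :
    invX L X y = ∑ ω, invVec L X y ω := invX_eq_sum q X L y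

/-- every `p`-torsion element of `ℚ/ℤ` is a sum of invariants -/
theorem exists_invX_eq [Nonempty X] (L : LocPkg p q) (c : QZ) (hc : p • c = 0) :
    ∃ y : Hloc q (IndMod X Kx) 2, p • y = 0 ∧ invX L X y = c := by
  classical
  have hfinO : Finite (LocOrb q X) := Quotient.finite _
  let _ : Fintype (LocOrb q X) := Fintype.ofFinite _
  let ω0 : LocOrb q X := Quotient.mk'' (ResSet.of (Classical.arbitrary X))
  obtain ⟨y, hy, hyc⟩ := invVec_surj L (Pi.single ω0 c) (by
    rw [← Pi.single_smul, hc, Pi.single_zero])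
  refine ⟨y, hy, ?_⟩
  rw [invX_eq_sum_invVec, hyc, Finset.sum_pi_single']
  simp

end Fermat.Agent.S56.EC.Base
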