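/-
S56 / block EC / BASE CASE, section `TorsBij` (architect helper83, proofs helper273):
two abstract lemmas on `cntT`.
-/
import Fermat.Agent.S56.EC.Base.Perm

set_option autoImplicit false

namespace Fermat.Agent.S56.EC.Base

open Polynomial

/-- an equivariant map which is bijective on `p`-torsion -/
theorem cntT_eq_of_tors_bij {M M' : Type*} [AddCommGroup M] [AddCommGroup M'] (a : M →+ M')
    {g : M →+ M} {g' : M' →+ M'} (ha : ∀ x, a (g x) = g' (a x)) (p : ℕ)
    (inj : ∀ x, p • x = 0 → a x = 0 → x = 0) (surj : ∀ y, p • y = 0 → ∃ x, p • x = 0 ∧ a x = y)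
    (P : ℤ[X]) : cntT p P g = cntT p P g' := by
  rw [cntT_eq_cnt (nsmulAddMonoidHom (α := M) p).ker.subtype
      (AddSubgroup.subtype_injective _) (Exact.kerOp_coe p g) p
      (fun x => ⟨fun hx => ⟨⟨x, hx⟩, rfl⟩, by rintro ⟨w, rfl⟩; exact w.2⟩) P]
  refine (cntT_eq_cnt (a.comp (nsmulAddMonoidHom (α := M) p).ker.subtype) ?_ (fun w => ha _) p
    (fun y => ⟨fun hy => ?_, ?_⟩) P).symm
  · rw [injective_iff_map_eq_zero]
    intro w hw
    exact Subtype.ext (inj w w.2 hw)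
  · obtain ⟨x, hx, rfl⟩ := surj y hy
    exact ⟨⟨x, hx⟩, rfl⟩
  · rintro ⟨w, rfl⟩
    have hw : p • (w : M) = 0 := w.2
    show p • a (w : M) = 0
    rw [← map_nsmul, hw, map_zero]

/-- `Map(Y, T)[p] = Map(Y, ℤ/p)` if `T[p] = ℤ/p` -/
theorem cntT_perm_of_tors {Y : Type*} (τ : Y → Y) {T : Type*} [AddCommGroup T] {p : ℕ}
    (j : ZMod p →+ T) (hj : Function.Injective j) (him : ∀ t : T, p • t = 0 ↔ ∃ c, j c = t)
    (P : ℤ[X]) : cntT p P (perm τ T) = cnt P (perm τ (ZMod p)) := by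
  refine cntT_eq_cnt (AddMonoidHom.compLeft j Y)
    (fun f f' h => funext fun y => hj (congrFun h y)) (fun _ => rfl) p
    (fun F => ⟨fun hF => ?_, ?_⟩) P
  · choose c hc using fun y => (him (F y)).1 (congrFun hF y)
    exact ⟨c, funext hc⟩
  · rintro ⟨c, rfl⟩
    exact funext fun y => (him (j (c y))).2 ⟨c y, rfl⟩

end Fermat.Agent.S56.EC.Base
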