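/-
S56 / block EC / BASE CASE: section `H2E` (task 3321, helper275):
`#π(H^2_S(E_X)[p]) · #π(𝔽_p) = ∏_q #π(𝔽_p[places over q])`.
-/
import Fermat.Agent.S56.EC.Base.LocTors
import Fermat.Agent.S56.EC.Base.LocNat
import Fermat.Agent.S56.EC.Base.TorsBij
import Fermat.Agent.S56.EC.Base.SumKer
import Fermat.Agent.S55.Units.T1.U4Compat

set_option autoImplicit false

namespace Fermat.Agent.S56.EC.Base

open Fermat.Agent.S55 Polynomial

/-- the image of `ℤ/p → ℚ/ℤ` is the `p`-torsion -/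
private theorem H2E_him {p : ℕ} (hp : 0 < p) (t : QZ) :
    p • t = 0 ↔ ∃ c, zmodToQZ p c = t := by
  have hmem : ∀ c : ZMod p, p • zmodToQZ p c = 0 := by
    intro c
    have : p • c = 0 := by rw [nsmul_eq_mul, ZMod.natCast_self, zero_mul]
    rw [← map_nsmul, this, map_zero]
  constructor
  · intro ht
    have hcard : Nat.card (nsmulAddMonoidHom (α := QZ) p).ker = p := torsCard_QZ p hp
    have hfin : Finite (nsmulAddMonoidHom (α := QZ) p).ker :=
      Nat.finite_of_card_ne_zero (by rw [hcard]; exact hp.ne')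
    let g : ZMod p → (nsmulAddMonoidHom (α := QZ) p).ker := fun c =>
      ⟨zmodToQZ p c, by rw [AddMonoidHom.mem_ker, nsmulAddMonoidHom_apply]; exact hmem c⟩
    have hginj : Function.Injective g := fun a b h =>
      zmodToQZ_injective p hp (congrArg Subtype.val h)
    have hbij := hginj.bijective_of_nat_card_le (by rw [hcard, Nat.card_zmod])
    obtain ⟨c, hc⟩ := hbij.2
      ⟨t, by rw [AddMonoidHom.mem_ker, nsmulAddMonoidHom_apply]; exact ht⟩
    exact ⟨c, congrArg Subtype.val hc⟩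
  · rintro ⟨c, rfl⟩
    exact hmem c

variable {S : Finset Nat.Primes} {p : ℕ} {X : Type} [MulAction GQ X] [Finite X]
  [SmoothSet lvlAll X]

/-- `H^2_q(K_X)[p] = 𝔽_p[places over q]`, equivariantly -/
theorem cntT_locOp (hp : 0 < p) {q : Nat.Primes} (L : LocPkg p q) {ρ : X →[GQ] X}
    (hρ : Function.Bijective ρ) (P : ℤ[X]) :
    cntT p P (locOp q ρ 2) = cnt P (perm (tauLoc q ρ) (ZMod p)) := by
  rw [cntT_eq_of_tors_bij (invVec L X) (g := locOp q ρ 2) (g' := perm (tauLoc q ρ) QZ)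
    (fun y => invVec_locOp L hρ y) p (fun y hy h => invVec_inj L y hy h)
    (fun c hc => invVec_surj L c hc) P]
  exact cntT_perm_of_tors (tauLoc q ρ) (zmodToQZ p) (zmodToQZ_injective p hp) (H2E_him hp) P

/-- `0 → H^2_S(E_X)[p] → ⨁_{q ∈ S} 𝔽_p[places over q] → 𝔽_p → 0`, equivariantly -/
theorem cntT_H2E [Nonempty X] (hp : p.Prime) (hS : S.Nonempty) (L : ∀ q, LocPkg p q)
    (h4 : U4Tors S L X) {ρ : X →[GQ] X} {m : ℕ} (hm : 0 < m) (hρ : ∀ x, ρ^[m] x = x) {P : ℤ[X]}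
    (hP : IsIdemPoly p m P) :
    cntT p P (Hsm.map (𝓝 := lvlS S) (IndMod.pull (ESx S) ρ) 2) *
        cnt P (AddMonoidHom.id (ZMod p)) =
      ∏ q : ↥S, cnt P (perm (tauLoc q.1 ρ) (ZMod p)) := by
  have hbij : Function.Bijective ρ := by
    rw [Function.bijective_iff_has_inverse]
    obtain ⟨k, rfl⟩ : ∃ k, m = k + 1 := ⟨m - 1, by omega⟩
    refine ⟨ρ^[k], fun x => ?_, fun x => ?_⟩
    · have h := hρ x
      rwa [Function.iterate_succ_apply] at h
    · have h := hρ x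
      rwa [Function.iterate_succ_apply'] at h
  have key := cntT_mul_eq_prod (M := Hsm (lvlS S) (IndMod X (ESx S)) 2) (T := QZ) (I := ↥S)
    (W := fun q => Hloc q.1 (IndMod X Kx) 2)
    (Hsm.map (𝓝 := lvlS S) (IndMod.pull (ESx S) ρ) 2) (fun q => locOp q.1 ρ 2)
    (fun q => locE S X q.1 2) (fun q => invX (L q.1) X)
    (fun q x => locE_pull ρ q.1 2 x) (fun q y => invX_locOp (L q.1) hbij y) hP
    (fun q y _ => locOp_iterate q.1 hρ 2 y) (fun q => finite_tors_Hloc hp.pos (L q.1))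
    h4.inj h4.recip h4.exist (fun c hc => by
      obtain ⟨q, hq⟩ := hS
      obtain ⟨y, hy, hyc⟩ := exists_invX_eq (X := X) (L q) c hc
      exact ⟨⟨q, hq⟩, y, hy, hyc⟩)
  rw [cntT_id_eq hp (torsCard_QZ p hp.pos) P] at key
  rw [key]
  exact Finset.prod_congr rfl fun q _ => cntT_locOp hp.pos (L q.1) hbij P

end Fermat.Agent.S56.EC.Base
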