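/-
S56 / block EC / BASE CASE, section `LocVec` (architect helper83, proofs helper190):
the vector of local invariants is equivariant.
-/
import Fermat.Agent.S56.EC.Base.CohDefs
import Fermat.Agent.S55.Units.T1.LocalDecomp

set_option autoImplicit false

namespace Fermat.Agent.S56.EC.Base

open Fermat.Agent.S55 Polynomial

variable {p : ℕ} {q : Nat.Primes} {X : Type} [MulAction GQ X] [Finite X]

/-- The vector of local invariants `y ↦ (inv_ω(y|_ω))_ω`, `ω` running through the local orbits. -/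
noncomputable def invVec (L : LocPkg p q) (X : Type) [MulAction GQ X] [Finite X] :
    Hloc q (IndMod X Kx) 2 →+ (LocOrb q X → QZ) where
  toFun y ω := invY q ω.orbit L.inv (locDecomp q X 2 ω y)
  map_zero' := by funext ω; simp
  map_add' y y' := by funext ω; simp

@[simp] theorem invVec_apply (L : LocPkg p q) (y : Hloc q (IndMod X Kx) 2) (ω : LocOrb q X) :
    invVec L X y ω = invY q ω.orbit L.inv (locDecomp q X 2 ω y) := rfl

/-- An injective equivariant map `u` maps the orbit `ω` bijectively onto the orbit `orbMap u ω`. -/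
theorem LocVec_exists_equiv {G : Type} [Group G] {Y : Type} [MulAction G Y] (u : Y →[G] Y)
    (hu : Function.Injective u) (ω : MulAction.orbitRel.Quotient G Y) :
    ∃ e : ω.orbit ≃ (orbMap u ω).orbit, ∀ x : ω.orbit, (e x : Y) = u (x : Y) := by
  have hmem : ∀ x : ω.orbit, u (x : Y) ∈ (orbMap u ω).orbit := by
    intro x
    rw [MulAction.orbitRel.Quotient.mem_orbit]
    exact congrArg (orbMap u) (MulAction.orbitRel.Quotient.mem_orbit.1 x.2)
  refine ⟨Equiv.ofBijective (fun x => ⟨u (x : Y), hmem x⟩) ⟨?_, ?_⟩, fun x => rfl⟩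
  · intro x x' h
    exact Subtype.ext (hu (congrArg Subtype.val h))
  · rintro ⟨z, hz⟩
    induction ω using Quotient.inductionOn' with
    | h x₀ =>
      rw [MulAction.orbitRel.Quotient.mem_orbit, orbMap_mk] at hz
      obtain ⟨h, rfl⟩ : z ∈ MulAction.orbit G (u x₀) := Quotient.exact' hz
      refine ⟨⟨h • x₀, ?_⟩, Subtype.ext (map_smul u h x₀)⟩
      rw [MulAction.orbitRel.Quotient.mem_orbit]
      exact Quotient.sound' ⟨h, rfl⟩

/-- `ρ` maps the orbit `ω` bijectively onto the orbit `tauLoc q ρ ω` -/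
theorem exists_orbit_equiv {ρ : X →[GQ] X} (hρ : Function.Bijective ρ) (ω : LocOrb q X) :
    ∃ e : ω.orbit ≃ (tauLoc q ρ ω).orbit, ∀ x : ω.orbit, ((e x : ResSet (ιv q) X)).val = ρ (x : ResSet (ιv q) X).val := by
  obtain ⟨e, he⟩ := LocVec_exists_equiv (ResSet.map (ιv q) ρ)
    (fun x x' h => ResSet.ext (hρ.1 (congrArg ResSet.val h))) ω
  exact ⟨e, fun x => congrArg ResSet.val (he x)⟩

/-- the vector of local invariants is equivariant -/
theorem invVec_locOp (L : LocPkg p q) {ρ : X →[GQ] X} (hρ : Function.Bijective ρ)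
    (y : Hloc q (IndMod X Kx) 2) :
    invVec L X (locOp q ρ 2 y) = perm (tauLoc q ρ) QZ (invVec L X y) := by
  funext ω
  obtain ⟨e, he⟩ := exists_orbit_equiv (q := q) hρ ω
  rw [perm_apply, invVec_apply, invVec_apply]
  show L.inv (Hsm.map (IndMod.sum ω.orbit (KL q)) 2
      (Hsm.map (IndMod.pull (KL q) (orbitIncl ω)) 2 (Hsm.map (IndMod.toResSet (ιv q) X Kx) 2
        (Hsm.map (ResMod.map (ιv q) (IndMod.pull Kx ρ)) 2 y)))) =
    L.inv (Hsm.map (IndMod.sum (tauLoc q ρ ω).orbit (KL q)) 2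
      (Hsm.map (IndMod.pull (KL q) (orbitIncl (tauLoc q ρ ω))) 2
        (Hsm.map (IndMod.toResSet (ιv q) X Kx) 2 y)))
  rw [← Hsm.map_comp, ← Hsm.map_comp, ← Hsm.map_comp, ← Hsm.map_comp, ← Hsm.map_comp]
  congr 1
  refine congrFun (congrArg DFunLike.coe (Hsm.map_congr (fun F => ?_) 2)) y
  show ∑ᶠ x : ω.orbit, ResMod.toRes (ιv q)
      (((ResMod.toRes (ιv q)).symm F) (ρ (x : ResSet (ιv q) X).val)) =
    ∑ᶠ x' : (tauLoc q ρ ω).orbit, ResMod.toRes (ιv q)
      (((ResMod.toRes (ιv q)).symm F) (x' : ResSet (ιv q) X).val)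
  rw [← finsum_comp_equiv e]
  exact finsum_congr fun x => by rw [he x]

end Fermat.Agent.S56.EC.Base
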